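/-
Project MAZUR (S15), cell [MZ-H5] (helper9): elementary first cohomology of a group `Γ` with
coefficients in an additive commutative group `A` carrying a `DistribMulAction Γ A`.

No `Rep`, no category theory: cocycles are explicit maps `c : Γ → A` with
`c (σ τ) = c σ + σ • c τ`, exactly the shape of Kummer maps `τ ↦ τ • y - y`.

* `mzh_Z1 Γ A`, `mzh_B1 Γ A : AddSubgroup (Γ → A)`, `mzh_H1 Γ A := Z1 ⧸ B1`, `mzh_cls`;
* `mzh_H0 Γ A : AddSubgroup A` (invariants);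
* functoriality in `A` (`mzh_Z1map`, `mzh_H1map`) for an additive equivariant map;
* restriction along `φ : Δ →* Γ` (`mzh_Z1res`, `mzh_H1res`), and to a subgroup (`mzh_H1resSub`);
* sub- and quotient modules of a `Γ`-stable subgroup (`mzh_subAction`, `mzh_quotAction`).
Prefix `mzh_`.
-/
import Mathlib

set_option autoImplicit false

namespace Fermat.Agent.MZ

section Defs

variable (Γ : Type*) [Group Γ] (A : Type*) [AddCommGroup A] [DistribMulAction Γ A]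

/-- `1`-cocycles of `Γ` with values in `A`. -/
def mzh_Z1 : AddSubgroup (Γ → A) where
  carrier := {c | ∀ σ τ : Γ, c (σ * τ) = c σ + σ • c τ}
  zero_mem' := by
    intro σ τ
    simp
  add_mem' := by
    intro c d hc hd σ τ
    simp only [Pi.add_apply, hc σ τ, hd σ τ, smul_add]
    abel
  neg_mem' := by
    intro c hc σ τ
    simp only [Pi.neg_apply, hc σ τ, smul_neg]
    abel

theorem mzh_mem_Z1 {c : Γ → A} :
    c ∈ mzh_Z1 Γ A ↔ ∀ σ τ : Γ, c (σ * τ) = c σ + σ • c τ := Iff.rfl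

/-- The coboundary map `a ↦ (σ ↦ σ • a - a)`. -/
def mzh_d0 : A →+ (Γ → A) where
  toFun a := fun σ => σ • a - a
  map_zero' := by
    funext σ
    simp
  map_add' a b := by
    funext σ
    simp only [Pi.add_apply, smul_add]
    abel

@[simp] theorem mzh_d0_apply (a : A) (σ : Γ) : mzh_d0 Γ A a σ = σ • a - a := rfl

theorem mzh_d0_mem_Z1 (a : A) : mzh_d0 Γ A a ∈ mzh_Z1 Γ A := by
  intro σ τ
  simp only [mzh_d0_apply, mul_smul, smul_sub]
  abel

/-- `1`-coboundaries. -/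
def mzh_B1 : AddSubgroup (Γ → A) := (mzh_d0 Γ A).range

theorem mzh_mem_B1 {c : Γ → A} : c ∈ mzh_B1 Γ A ↔ ∃ a : A, ∀ σ : Γ, c σ = σ • a - a := by
  constructor
  · rintro ⟨a, rfl⟩
    exact ⟨a, fun σ => rfl⟩
  · rintro ⟨a, ha⟩
    exact ⟨a, funext fun σ => (ha σ).symm⟩

theorem mzh_B1_le_Z1 : mzh_B1 Γ A ≤ mzh_Z1 Γ A := by
  rintro c ⟨a, rfl⟩
  exact mzh_d0_mem_Z1 Γ A a

/-- First cohomology. -/
abbrev mzh_H1 : Type _ := ↥(mzh_Z1 Γ A) ⧸ (mzh_B1 Γ A).addSubgroupOf (mzh_Z1 Γ A)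

/-- The class of a cocycle. -/
def mzh_cls : ↥(mzh_Z1 Γ A) →+ mzh_H1 Γ A := QuotientAddGroup.mk' _

theorem mzh_cls_surjective : Function.Surjective (mzh_cls Γ A) :=
  QuotientAddGroup.mk'_surjective _

theorem mzh_cls_eq_zero_iff (c : ↥(mzh_Z1 Γ A)) :
    mzh_cls Γ A c = 0 ↔ ∃ a : A, ∀ σ : Γ, (c : Γ → A) σ = σ • a - a := by
  unfold mzh_cls
  rw [QuotientAddGroup.mk'_apply, QuotientAddGroup.eq_zero_iff, AddSubgroup.mem_addSubgroupOf,
    mzh_mem_B1]

theorem mzh_cls_eq_iff (c d : ↥(mzh_Z1 Γ A)) :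
    mzh_cls Γ A c = mzh_cls Γ A d ↔
      ∃ a : A, ∀ σ : Γ, (c : Γ → A) σ - (d : Γ → A) σ = σ • a - a := by
  rw [← sub_eq_zero, ← map_sub, mzh_cls_eq_zero_iff]
  rfl

/-- Invariants. -/
def mzh_H0 : AddSubgroup A where
  carrier := {a | ∀ σ : Γ, σ • a = a}
  zero_mem' := by
    intro σ
    simp
  add_mem' := by
    intro a b ha hb σ
    rw [smul_add, ha σ, hb σ]
  neg_mem' := by
    intro a ha σ
    rw [smul_neg, ha σ]

theorem mzh_mem_H0 {a : A} : a ∈ mzh_H0 Γ A ↔ ∀ σ : Γ, σ • a = a := Iff.rfl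

end Defs

section Functoriality

variable {Γ : Type*} [Group Γ] {A B C : Type*} [AddCommGroup A] [DistribMulAction Γ A]
  [AddCommGroup B] [DistribMulAction Γ B] [AddCommGroup C] [DistribMulAction Γ C]

/-- Push a cocycle forward along an equivariant additive map. -/
def mzh_Z1map (f : A →+ B) (hf : ∀ (σ : Γ) (a : A), f (σ • a) = σ • f a) :
    ↥(mzh_Z1 Γ A) →+ ↥(mzh_Z1 Γ B) where
  toFun c := ⟨fun σ => f ((c : Γ → A) σ), by
    intro σ τ
    show f ((c : Γ → A) (σ * τ)) = f ((c : Γ → A) σ) + σ • f ((c : Γ → A) τ)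
    rw [c.2 σ τ, map_add, hf]⟩
  map_zero' := by
    apply Subtype.ext
    funext σ
    simp
  map_add' c d := by
    apply Subtype.ext
    funext σ
    simp

@[simp] theorem mzh_Z1map_apply (f : A →+ B) (hf : ∀ (σ : Γ) (a : A), f (σ • a) = σ • f a)
    (c : ↥(mzh_Z1 Γ A)) (σ : Γ) :
    ((mzh_Z1map f hf c : ↥(mzh_Z1 Γ B)) : Γ → B) σ = f ((c : Γ → A) σ) := rfl

/-- The induced map on `H¹`. -/
def mzh_H1map (f : A →+ B) (hf : ∀ (σ : Γ) (a : A), f (σ • a) = σ • f a) :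
    mzh_H1 Γ A →+ mzh_H1 Γ B :=
  QuotientAddGroup.map _ _ (mzh_Z1map f hf) (by
    rintro c hc
    rw [AddSubgroup.mem_addSubgroupOf, mzh_mem_B1] at hc
    obtain ⟨a, ha⟩ := hc
    rw [AddSubgroup.mem_comap, AddSubgroup.mem_addSubgroupOf, mzh_mem_B1]
    refine ⟨f a, fun σ => ?_⟩
    rw [mzh_Z1map_apply, ha σ, map_sub, hf])

@[simp] theorem mzh_H1map_cls (f : A →+ B) (hf : ∀ (σ : Γ) (a : A), f (σ • a) = σ • f a)
    (c : ↥(mzh_Z1 Γ A)) :
    mzh_H1map f hf (mzh_cls Γ A c) = mzh_cls Γ B (mzh_Z1map f hf c) := rfl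

theorem mzh_H1map_comp (f : A →+ B) (hf : ∀ (σ : Γ) (a : A), f (σ • a) = σ • f a)
    (g : B →+ C) (hg : ∀ (σ : Γ) (b : B), g (σ • b) = σ • g b) (x : mzh_H1 Γ A) :
    mzh_H1map g hg (mzh_H1map f hf x) =
      mzh_H1map (g.comp f) (fun σ a => by
        rw [AddMonoidHom.comp_apply, hf, hg, AddMonoidHom.comp_apply]) x := by
  obtain ⟨c, rfl⟩ := mzh_cls_surjective Γ A x
  rfl

/-- The induced map on invariants. -/
def mzh_H0map (f : A →+ B) (hf : ∀ (σ : Γ) (a : A), f (σ • a) = σ • f a) :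
    ↥(mzh_H0 Γ A) →+ ↥(mzh_H0 Γ B) where
  toFun a := ⟨f a, fun σ => by rw [← hf, a.2 σ]⟩
  map_zero' := by
    apply Subtype.ext
    simp
  map_add' a b := by
    apply Subtype.ext
    simp

@[simp] theorem mzh_H0map_coe (f : A →+ B) (hf : ∀ (σ : Γ) (a : A), f (σ • a) = σ • f a)
    (a : ↥(mzh_H0 Γ A)) : ((mzh_H0map f hf a : ↥(mzh_H0 Γ B)) : B) = f a := rfl

end Functoriality

section Restriction

variable {Γ Δ : Type*} [Group Γ] [Group Δ] {A : Type*} [AddCommGroup A] [DistribMulAction Γ A]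
  [DistribMulAction Δ A]

/-- Restriction of cocycles along `φ : Δ →* Γ` (the `Δ`-action being the pulled back one). -/
def mzh_Z1res (φ : Δ →* Γ) (hφ : ∀ (δ : Δ) (a : A), δ • a = φ δ • a) :
    ↥(mzh_Z1 Γ A) →+ ↥(mzh_Z1 Δ A) where
  toFun c := ⟨fun δ => (c : Γ → A) (φ δ), by
    intro σ τ
    show (c : Γ → A) (φ (σ * τ)) = (c : Γ → A) (φ σ) + σ • (c : Γ → A) (φ τ)
    rw [map_mul, c.2, hφ]⟩
  map_zero' := by
    apply Subtype.ext
    funext σ
    simp
  map_add' c d := by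
    apply Subtype.ext
    funext σ
    simp

@[simp] theorem mzh_Z1res_apply (φ : Δ →* Γ) (hφ : ∀ (δ : Δ) (a : A), δ • a = φ δ • a)
    (c : ↥(mzh_Z1 Γ A)) (δ : Δ) :
    ((mzh_Z1res φ hφ c : ↥(mzh_Z1 Δ A)) : Δ → A) δ = (c : Γ → A) (φ δ) := rfl

/-- Restriction on `H¹` along `φ : Δ →* Γ`. -/
def mzh_H1res (φ : Δ →* Γ) (hφ : ∀ (δ : Δ) (a : A), δ • a = φ δ • a) :
    mzh_H1 Γ A →+ mzh_H1 Δ A :=
  QuotientAddGroup.map _ _ (mzh_Z1res φ hφ) (by
    rintro c hc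
    rw [AddSubgroup.mem_addSubgroupOf, mzh_mem_B1] at hc
    obtain ⟨a, ha⟩ := hc
    rw [AddSubgroup.mem_comap, AddSubgroup.mem_addSubgroupOf, mzh_mem_B1]
    refine ⟨a, fun δ => ?_⟩
    rw [mzh_Z1res_apply, ha, hφ])

@[simp] theorem mzh_H1res_cls (φ : Δ →* Γ) (hφ : ∀ (δ : Δ) (a : A), δ • a = φ δ • a)
    (c : ↥(mzh_Z1 Γ A)) :
    mzh_H1res φ hφ (mzh_cls Γ A c) = mzh_cls Δ A (mzh_Z1res φ hφ c) := rfl

end Restriction

section SubgroupRestriction

variable {Γ : Type*} [Group Γ] {A B : Type*} [AddCommGroup A] [DistribMulAction Γ A]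
  [AddCommGroup B] [DistribMulAction Γ B]

/-- Restriction to a subgroup `I ≤ Γ` (with Mathlib's action of `↥I` on `A`). -/
def mzh_H1resSub (I : Subgroup Γ) : mzh_H1 Γ A →+ mzh_H1 ↥I A :=
  mzh_H1res I.subtype (fun _ _ => rfl)

@[simp] theorem mzh_H1resSub_cls (I : Subgroup Γ) (c : ↥(mzh_Z1 Γ A)) :
    mzh_H1resSub I (mzh_cls Γ A c) = mzh_cls ↥I A (mzh_Z1res I.subtype (fun _ _ => rfl) c) := rfl

theorem mzh_H1resSub_eq_zero_iff (I : Subgroup Γ) (c : ↥(mzh_Z1 Γ A)) :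
    mzh_H1resSub I (mzh_cls Γ A c) = 0 ↔
      ∃ a : A, ∀ σ ∈ I, (c : Γ → A) σ = σ • a - a := by
  rw [mzh_H1resSub_cls, mzh_cls_eq_zero_iff]
  constructor
  · rintro ⟨a, ha⟩
    exact ⟨a, fun σ hσ => ha ⟨σ, hσ⟩⟩
  · rintro ⟨a, ha⟩
    exact ⟨a, fun σ => ha σ σ.2⟩

/-- Restriction commutes with functoriality in the coefficients. -/
theorem mzh_H1resSub_H1map (I : Subgroup Γ) (f : A →+ B)
    (hf : ∀ (σ : Γ) (a : A), f (σ • a) = σ • f a) (x : mzh_H1 Γ A) :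
    mzh_H1resSub I (mzh_H1map f hf x) =
      mzh_H1map f (fun (σ : ↥I) a => hf σ a) (mzh_H1resSub I x) := by
  obtain ⟨c, rfl⟩ := mzh_cls_surjective Γ A x
  rfl

end SubgroupRestriction

section SubQuot

variable (Γ : Type*) [Group Γ] {A : Type*} [AddCommGroup A] [DistribMulAction Γ A]

/-- A subgroup of `A` is `Γ`-stable. -/
def mzh_Stable (F : AddSubgroup A) : Prop := ∀ (σ : Γ), ∀ a ∈ F, σ • a ∈ F

variable {Γ}

/-- The action on a stable subgroup. -/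
@[reducible] def mzh_subAction (F : AddSubgroup A) (hF : mzh_Stable Γ F) :
    DistribMulAction Γ ↥F where
  smul σ a := ⟨σ • (a : A), hF σ a a.2⟩
  one_smul a := Subtype.ext (one_smul Γ (a : A))
  mul_smul σ τ a := Subtype.ext (mul_smul σ τ (a : A))
  smul_zero σ := Subtype.ext (smul_zero σ)
  smul_add σ a b := Subtype.ext (smul_add σ (a : A) (b : A))

/-- The action on the quotient by a stable subgroup. -/
@[reducible] def mzh_quotAction (F : AddSubgroup A) (hF : mzh_Stable Γ F) :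
    DistribMulAction Γ (A ⧸ F) where
  smul σ := QuotientAddGroup.map F F (DistribSMul.toAddMonoidHom A σ) (fun a ha => hF σ a ha)
  one_smul x := by
    induction x using QuotientAddGroup.induction_on with
    | H a =>
      show ((QuotientAddGroup.map F F (DistribSMul.toAddMonoidHom A (1 : Γ)) _) (a : A ⧸ F)) = _
      rw [QuotientAddGroup.map_mk]
      simp
  mul_smul σ τ x := by
    induction x using QuotientAddGroup.induction_on with
    | H a =>
      show ((QuotientAddGroup.map F F (DistribSMul.toAddMonoidHom A (σ * τ)) _) (a : A ⧸ F)) =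
        (QuotientAddGroup.map F F (DistribSMul.toAddMonoidHom A σ) _)
          ((QuotientAddGroup.map F F (DistribSMul.toAddMonoidHom A τ) _) (a : A ⧸ F))
      rw [QuotientAddGroup.map_mk, QuotientAddGroup.map_mk, QuotientAddGroup.map_mk]
      simp [mul_smul]
  smul_zero σ := map_zero _
  smul_add σ x y := map_add _ x y

theorem mzh_subAction_coe (F : AddSubgroup A) (hF : mzh_Stable Γ F) (σ : Γ) (a : ↥F) :
    ((letI := mzh_subAction F hF; σ • a : ↥F) : A) = σ • (a : A) := rfl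

theorem mzh_quotAction_mk (F : AddSubgroup A) (hF : mzh_Stable Γ F) (σ : Γ) (a : A) :
    (letI := mzh_quotAction F hF; σ • (a : A ⧸ F)) = ((σ • a : A) : A ⧸ F) := rfl

end SubQuot

end Fermat.Agent.MZ
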