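/-
Project MAZUR (S15), cell [MZ-H5] (helper9): pure counting lemmas for additive groups
(all statements are equalities of `Nat.card`s, valid without any finiteness hypothesis).
Prefix `mzh_`.
-/
import Mathlib

set_option autoImplicit false

namespace Fermat.Agent.MZ

/-- `|ker φ| · |range φ| = |X|`. -/
theorem mzh_card_ker_mul_card_range {X Y : Type*} [AddGroup X] [AddGroup Y] (φ : X →+ Y) :
    Nat.card φ.ker * Nat.card φ.range = Nat.card X := by
  rw [← AddSubgroup.index_ker, AddSubgroup.card_mul_index]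

/-- The range of an injective homomorphism has the cardinality of the source. -/
theorem mzh_card_range_of_injective {X Y : Type*} [AddGroup X] [AddGroup Y] (φ : X →+ Y)
    (hφ : Function.Injective φ) : Nat.card φ.range = Nat.card X :=
  (Nat.card_congr (AddMonoidHom.ofInjective hφ).toEquiv).symm

/-- Four-term count: `0 → X₀ → X₁ → X₂ → Y` exact gives `|X₂| · |X₀| = |X₁| · |range d|`. -/
theorem mzh_card_four {X₀ X₁ X₂ Y : Type*} [AddGroup X₀] [AddGroup X₁] [AddGroup X₂]
    [AddGroup Y] (a : X₀ →+ X₁) (b : X₁ →+ X₂) (d : X₂ →+ Y) (ha : Function.Injective a)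
    (hab : a.range = b.ker) (hbd : b.range = d.ker) :
    Nat.card X₂ * Nat.card X₀ = Nat.card X₁ * Nat.card d.range := by
  have h2 := mzh_card_ker_mul_card_range d
  have h1 := mzh_card_ker_mul_card_range b
  rw [← hbd] at h2
  rw [← hab, mzh_card_range_of_injective a ha] at h1
  rw [← h2, ← h1]
  ring

/-- Selmer count: for `X --φ--> Y --ψ--> Z` exact at `Y` and any subgroup `L ≤ Y`,
`|L| · |ker φ| = |φ⁻¹ L| · |ψ L|`. -/
theorem mzh_card_selmer {X Y Z : Type*} [AddGroup X] [AddGroup Y] [AddGroup Z]
    (φ : X →+ Y) (ψ : Y →+ Z) (h : φ.range = ψ.ker) (L : AddSubgroup Y) :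
    Nat.card L * Nat.card φ.ker = Nat.card (L.comap φ) * Nat.card (L.map ψ) := by
  -- restrict `ψ` to `L`
  have h1 := mzh_card_ker_mul_card_range (ψ.comp L.subtype)
  have hr1 : (ψ.comp L.subtype).range = L.map ψ := by
    rw [AddMonoidHom.range_comp, AddSubgroup.range_subtype]
  -- restrict `φ` to `φ⁻¹ L`
  have h2 := mzh_card_ker_mul_card_range (φ.comp (L.comap φ).subtype)
  have hr2 : (φ.comp (L.comap φ).subtype).range = L ⊓ φ.range := by
    rw [AddMonoidHom.range_comp, AddSubgroup.range_subtype, AddSubgroup.map_comap_eq, inf_comm]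
  have hk1 : Nat.card (ψ.comp L.subtype).ker = Nat.card ↥(L ⊓ φ.range) := by
    refine Nat.card_congr
      { toFun := fun x => ⟨((x : ↥L) : Y), ⟨(x : ↥L).2, by
          rw [h]
          exact x.2⟩⟩
        invFun := fun y => ⟨⟨(y : Y), y.2.1⟩, by
          have hy : (y : Y) ∈ ψ.ker := by
            rw [← h]
            exact y.2.2
          exact hy⟩
        left_inv := fun x => rfl
        right_inv := fun y => rfl }
  have hk2 : Nat.card (φ.comp (L.comap φ).subtype).ker = Nat.card φ.ker := by
    refine Nat.card_congr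
      { toFun := fun x => ⟨((x : ↥(L.comap φ)) : X), x.2⟩
        invFun := fun y => ⟨⟨(y : X), by
          rw [AddSubgroup.mem_comap, (AddMonoidHom.mem_ker).mp y.2]
          exact L.zero_mem⟩, y.2⟩
        left_inv := fun x => rfl
        right_inv := fun y => rfl }
  rw [hr1, hk1] at h1
  rw [hr2, hk2] at h2
  rw [← h1, ← h2]
  ring

end Fermat.Agent.MZ
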