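/-
Project MAZUR (S15), cell [MZ-H5] (helper9): the six-term exact sequence
`0 → A^Γ → B^Γ → C^Γ → H¹(Γ,A) → H¹(Γ,B) → H¹(Γ,C)` of a short exact sequence of `Γ`-modules,
in the elementary framework of `MZ/H/Coh.lean`, and the resulting count
`|ker (H¹ A → H¹ B)| · |B^Γ| = |A^Γ| · |C^Γ|`.
Prefix `mzh_`.
-/
import Fermat.Agent.MZ.H.Coh
import Fermat.Agent.MZ.H.Count

set_option autoImplicit false

namespace Fermat.Agent.MZ

/-- A short exact sequence `0 → A → B → C → 0` of `Γ`-modules. -/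
structure mzh_IsSES (Γ : Type*) [Group Γ] {A B C : Type*} [AddCommGroup A] [DistribMulAction Γ A]
    [AddCommGroup B] [DistribMulAction Γ B] [AddCommGroup C] [DistribMulAction Γ C]
    (f : A →+ B) (g : B →+ C) : Prop where
  f_smul : ∀ (σ : Γ) (a : A), f (σ • a) = σ • f a
  g_smul : ∀ (σ : Γ) (b : B), g (σ • b) = σ • g b
  inj : Function.Injective f
  surj : Function.Surjective g
  exact : ∀ b : B, g b = 0 ↔ ∃ a : A, f a = b

section

variable {Γ : Type*} [Group Γ] {A B C : Type*} [AddCommGroup A] [DistribMulAction Γ A]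
  [AddCommGroup B] [DistribMulAction Γ B] [AddCommGroup C] [DistribMulAction Γ C]
  {f : A →+ B} {g : B →+ C}

theorem mzh_IsSES.gf (h : mzh_IsSES Γ f g) (a : A) : g (f a) = 0 :=
  (h.exact (f a)).mpr ⟨a, rfl⟩

/-- A short exact sequence stays one for every subgroup. -/
theorem mzh_IsSES.resSub (h : mzh_IsSES Γ f g) (I : Subgroup Γ) : mzh_IsSES ↥I f g where
  f_smul σ a := h.f_smul σ a
  g_smul σ b := h.g_smul σ b
  inj := h.inj
  surj := h.surj
  exact := h.exact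

/-- `H¹(f) ∘ H¹(g) = 0`. -/
theorem mzh_H1map_g_f (h : mzh_IsSES Γ f g) (y : mzh_H1 Γ A) :
    mzh_H1map g h.g_smul (mzh_H1map f h.f_smul y) = 0 := by
  obtain ⟨a, rfl⟩ := mzh_cls_surjective Γ A y
  rw [mzh_H1map_cls, mzh_H1map_cls, mzh_cls_eq_zero_iff]
  refine ⟨0, fun σ => ?_⟩
  rw [mzh_Z1map_apply, mzh_Z1map_apply, h.gf, smul_zero, sub_zero]

/-- Exactness at `H¹(Γ, B)`. -/
theorem mzh_exact_H1_mid (h : mzh_IsSES Γ f g) :
    (mzh_H1map f h.f_smul).range = (mzh_H1map g h.g_smul).ker := by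
  apply le_antisymm
  · rintro x ⟨y, rfl⟩
    exact mzh_H1map_g_f h y
  · intro x hx
    obtain ⟨c, rfl⟩ := mzh_cls_surjective Γ B x
    rw [AddMonoidHom.mem_ker, mzh_H1map_cls, mzh_cls_eq_zero_iff] at hx
    obtain ⟨γ, hγ⟩ := hx
    obtain ⟨b, rfl⟩ := h.surj γ
    have hex : ∀ σ : Γ, ∃ a : A, f a = (c : Γ → B) σ - (σ • b - b) := by
      intro σ
      apply (h.exact _).mp
      have := hγ σ
      rw [mzh_Z1map_apply] at this
      rw [map_sub, map_sub, this, h.g_smul, sub_self]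
    choose a ha using hex
    have hacoc : a ∈ mzh_Z1 Γ A := by
      intro σ τ
      apply h.inj
      rw [map_add, h.f_smul, ha, ha, ha, c.2 σ τ, mul_smul, smul_sub, smul_sub]
      abel
    refine ⟨mzh_cls Γ A ⟨a, hacoc⟩, ?_⟩
    rw [mzh_H1map_cls, mzh_cls_eq_iff]
    refine ⟨-b, fun σ => ?_⟩
    rw [mzh_Z1map_apply]
    show f (a σ) - (c : Γ → B) σ = σ • -b - -b
    rw [ha, smul_neg]
    abel

/-! ### The connecting homomorphism -/

/-- A chosen lift of an element of `C`. -/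
noncomputable def mzh_lift (h : mzh_IsSES Γ f g) (γ : C) : B := Function.surjInv h.surj γ

theorem mzh_g_lift (h : mzh_IsSES Γ f g) (γ : C) : g (mzh_lift h γ) = γ :=
  Function.surjInv_eq h.surj γ

theorem mzh_delta_aux (h : mzh_IsSES Γ f g) (γ : ↥(mzh_H0 Γ C)) (σ : Γ) :
    ∃ a : A, f a = σ • mzh_lift h (γ : C) - mzh_lift h (γ : C) := by
  apply (h.exact _).mp
  rw [map_sub, h.g_smul, mzh_g_lift, γ.2 σ, sub_self]

/-- The cocycle `σ ↦ f⁻¹(σ b - b)` for the chosen lift `b` of `γ`. -/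
noncomputable def mzh_deltaFun (h : mzh_IsSES Γ f g) (γ : ↥(mzh_H0 Γ C)) (σ : Γ) : A :=
  Classical.choose (mzh_delta_aux h γ σ)

theorem mzh_f_deltaFun (h : mzh_IsSES Γ f g) (γ : ↥(mzh_H0 Γ C)) (σ : Γ) :
    f (mzh_deltaFun h γ σ) = σ • mzh_lift h (γ : C) - mzh_lift h (γ : C) :=
  Classical.choose_spec (mzh_delta_aux h γ σ)

theorem mzh_deltaFun_mem (h : mzh_IsSES Γ f g) (γ : ↥(mzh_H0 Γ C)) :
    mzh_deltaFun h γ ∈ mzh_Z1 Γ A := by
  intro σ τ
  apply h.inj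
  rw [map_add, h.f_smul, mzh_f_deltaFun, mzh_f_deltaFun, mzh_f_deltaFun, mul_smul, smul_sub]
  abel

/-- The cocycle-level connecting map. -/
noncomputable def mzh_deltaZ (h : mzh_IsSES Γ f g) (γ : ↥(mzh_H0 Γ C)) : ↥(mzh_Z1 Γ A) :=
  ⟨mzh_deltaFun h γ, mzh_deltaFun_mem h γ⟩

/-- Characterisation of the class of the connecting cocycle: ANY lift `b` of `γ` and any cocycle
`a` with `f (a σ) = σ b - b` compute it. -/
theorem mzh_cls_deltaZ_eq (h : mzh_IsSES Γ f g) (γ : ↥(mzh_H0 Γ C)) (b : B) (hb : g b = γ)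
    (a : ↥(mzh_Z1 Γ A)) (ha : ∀ σ : Γ, f ((a : Γ → A) σ) = σ • b - b) :
    mzh_cls Γ A (mzh_deltaZ h γ) = mzh_cls Γ A a := by
  rw [mzh_cls_eq_iff]
  obtain ⟨a₀, ha₀⟩ := (h.exact (mzh_lift h (γ : C) - b)).mp (by
    rw [map_sub, mzh_g_lift, hb, sub_self])
  refine ⟨a₀, fun σ => ?_⟩
  apply h.inj
  show f (mzh_deltaFun h γ σ - (a : Γ → A) σ) = f (σ • a₀ - a₀)
  rw [map_sub, map_sub, h.f_smul, mzh_f_deltaFun, ha, ha₀, smul_sub]
  abel

/-- The connecting homomorphism `δ : C^Γ → H¹(Γ, A)`. -/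
noncomputable def mzh_delta (h : mzh_IsSES Γ f g) : ↥(mzh_H0 Γ C) →+ mzh_H1 Γ A :=
  AddMonoidHom.mk' (fun γ => mzh_cls Γ A (mzh_deltaZ h γ)) (by
    intro γ γ'
    rw [← map_add]
    refine mzh_cls_deltaZ_eq h (γ + γ') (mzh_lift h (γ : C) + mzh_lift h (γ' : C)) ?_ _ ?_
    · rw [map_add, mzh_g_lift, mzh_g_lift]
      rfl
    · intro σ
      show f (mzh_deltaFun h γ σ + mzh_deltaFun h γ' σ) = _
      rw [map_add, mzh_f_deltaFun, mzh_f_deltaFun, smul_add]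
      abel)

theorem mzh_delta_apply (h : mzh_IsSES Γ f g) (γ : ↥(mzh_H0 Γ C)) :
    mzh_delta h γ = mzh_cls Γ A (mzh_deltaZ h γ) := rfl

/-- `δ γ` is computed by any lift. -/
theorem mzh_delta_eq (h : mzh_IsSES Γ f g) (γ : ↥(mzh_H0 Γ C)) (b : B) (hb : g b = γ)
    (a : ↥(mzh_Z1 Γ A)) (ha : ∀ σ : Γ, f ((a : Γ → A) σ) = σ • b - b) :
    mzh_delta h γ = mzh_cls Γ A a :=
  mzh_cls_deltaZ_eq h γ b hb a ha

/-- Exactness at `H¹(Γ, A)`. -/
theorem mzh_exact_H1_left (h : mzh_IsSES Γ f g) :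
    (mzh_delta h).range = (mzh_H1map f h.f_smul).ker := by
  apply le_antisymm
  · rintro x ⟨γ, rfl⟩
    rw [AddMonoidHom.mem_ker, mzh_delta_apply, mzh_H1map_cls, mzh_cls_eq_zero_iff]
    refine ⟨mzh_lift h (γ : C), fun σ => ?_⟩
    rw [mzh_Z1map_apply]
    exact mzh_f_deltaFun h γ σ
  · intro x hx
    obtain ⟨a, rfl⟩ := mzh_cls_surjective Γ A x
    rw [AddMonoidHom.mem_ker, mzh_H1map_cls, mzh_cls_eq_zero_iff] at hx
    obtain ⟨b, hb⟩ := hx
    have hinv : g b ∈ mzh_H0 Γ C := by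
      intro σ
      have h1 : g (σ • b - b) = 0 := by
        rw [← hb σ, mzh_Z1map_apply, h.gf]
      rw [map_sub, h.g_smul] at h1
      exact sub_eq_zero.mp h1
    refine ⟨⟨g b, hinv⟩, ?_⟩
    exact mzh_delta_eq h ⟨g b, hinv⟩ b rfl a (fun σ => by
      rw [← hb σ, mzh_Z1map_apply])

/-- Exactness at `C^Γ`. -/
theorem mzh_exact_H0_right (h : mzh_IsSES Γ f g) :
    (mzh_H0map g h.g_smul).range = (mzh_delta h).ker := by
  apply le_antisymm
  · rintro γ ⟨b₀, rfl⟩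
    rw [AddMonoidHom.mem_ker]
    have := mzh_delta_eq h (mzh_H0map g h.g_smul b₀) (b₀ : B) rfl 0 (fun σ => by
      show f 0 = σ • (b₀ : B) - b₀
      rw [map_zero, b₀.2 σ, sub_self])
    rw [this, map_zero]
  · intro γ hγ
    rw [AddMonoidHom.mem_ker, mzh_delta_apply, mzh_cls_eq_zero_iff] at hγ
    obtain ⟨a₀, ha₀⟩ := hγ
    have hinv : mzh_lift h (γ : C) - f a₀ ∈ mzh_H0 Γ B := by
      intro σ
      have h1 : f (mzh_deltaFun h γ σ) = f (σ • a₀ - a₀) := congrArg f (ha₀ σ)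
      rw [mzh_f_deltaFun, map_sub, h.f_smul] at h1
      rw [smul_sub]
      have h2 : σ • mzh_lift h (γ : C) - σ • f a₀ - (mzh_lift h (γ : C) - f a₀) = 0 := by
        have : σ • mzh_lift h (γ : C) - σ • f a₀ - (mzh_lift h (γ : C) - f a₀) =
            (σ • mzh_lift h (γ : C) - mzh_lift h (γ : C)) - (σ • f a₀ - f a₀) := by abel
        rw [this, h1, sub_self]
      exact sub_eq_zero.mp h2
    refine ⟨⟨_, hinv⟩, ?_⟩
    apply Subtype.ext
    show g (mzh_lift h (γ : C) - f a₀) = γ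
    rw [map_sub, mzh_g_lift, h.gf, sub_zero]

/-- Exactness at `B^Γ`. -/
theorem mzh_exact_H0_mid (h : mzh_IsSES Γ f g) :
    (mzh_H0map f h.f_smul).range = (mzh_H0map g h.g_smul).ker := by
  apply le_antisymm
  · rintro b ⟨a, rfl⟩
    rw [AddMonoidHom.mem_ker]
    apply Subtype.ext
    show g (f a) = 0
    exact h.gf a
  · intro b hb
    rw [AddMonoidHom.mem_ker] at hb
    have hb' : g (b : B) = 0 := congrArg Subtype.val hb
    obtain ⟨a, ha⟩ := (h.exact _).mp hb'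
    have hinv : a ∈ mzh_H0 Γ A := by
      intro σ
      apply h.inj
      rw [h.f_smul, ha, b.2 σ]
    exact ⟨⟨a, hinv⟩, Subtype.ext ha⟩

/-- Injectivity at `A^Γ`. -/
theorem mzh_H0map_injective (h : mzh_IsSES Γ f g) :
    Function.Injective (mzh_H0map f h.f_smul) := by
  intro a a' haa
  apply Subtype.ext
  apply h.inj
  exact congrArg Subtype.val haa

/-- **The count**: `|C^Γ| · |A^Γ| = |B^Γ| · |ker (H¹ A → H¹ B)|`. -/
theorem mzh_card_ker_H1map (h : mzh_IsSES Γ f g) :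
    Nat.card ↥(mzh_H0 Γ C) * Nat.card ↥(mzh_H0 Γ A) =
      Nat.card ↥(mzh_H0 Γ B) * Nat.card ↥(mzh_H1map f h.f_smul).ker := by
  have := mzh_card_four (mzh_H0map f h.f_smul) (mzh_H0map g h.g_smul) (mzh_delta h)
    (mzh_H0map_injective h) (mzh_exact_H0_mid h) (mzh_exact_H0_right h)
  rw [mzh_exact_H1_left h] at this
  exact this

/-- If `B^Γ → C^Γ` is onto then `H¹(Γ, A) → H¹(Γ, B)` is injective. -/
theorem mzh_H1map_injective_of_surjective (h : mzh_IsSES Γ f g)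
    (hs : ∀ γ ∈ mzh_H0 Γ C, ∃ b ∈ mzh_H0 Γ B, g b = γ) :
    Function.Injective (mzh_H1map f h.f_smul) := by
  rw [injective_iff_map_eq_zero]
  intro x hx
  have hx' : x ∈ (mzh_H1map f h.f_smul).ker := hx
  rw [← mzh_exact_H1_left h] at hx'
  obtain ⟨γ, rfl⟩ := hx'
  obtain ⟨b, hb, hbγ⟩ := hs γ γ.2
  have hmem : γ ∈ (mzh_H0map g h.g_smul).range := ⟨⟨b, hb⟩, Subtype.ext hbγ⟩
  rw [mzh_exact_H0_right h] at hmem
  exact hmem

end

end Fermat.Agent.MZ
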