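/-
MAZUR / node [MZ-H] (F5), glue (helper29): TRIVIAL ACTION.  If `Γ` acts trivially on `A`
(`htriv : ∀ σ a, σ • a = a`) then cocycles are homomorphisms, coboundaries vanish, and
`mzh_H1 Γ A` is the group of characters `Γ →* Multiplicative A`
(the shape consumed by `MZ/Q/Char.lean`: `χ : G_ℚ →* Multiplicative (ZMod r)`).

* `mzd_homOfZ1 htriv c : Γ →* Multiplicative A`, `mzd_Z1OfHom htriv χ : mzh_Z1 Γ A`;
* `mzd_trivEquiv htriv : mzh_H1 Γ A ≃+ Additive (Γ →* Multiplicative A)`,
  `mzd_char htriv x : Γ →* Multiplicative A` (the character of a class), `mzd_char_cls`,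
  `mzd_char_add`, `mzd_char_injective`, `mzd_char_surjective`, `mzd_cls_Z1OfHom`;
* `mzd_resSub_eq_zero_iff_char` : `mzh_H1resSub I x = 0 ↔ ∀ σ ∈ I, mzd_char htriv x σ = 1`;
* `mzd_card_H1_triv` : `Nat.card (mzh_H1 Γ A) = Nat.card (Γ →* Multiplicative A)`;
* `mzd_H0_triv` : `mzh_H0 Γ A = ⊤`.
Prefix `mzd_`.
-/
import Fermat.Agent.MZ.H.Coh

set_option autoImplicit false

namespace Fermat.Agent.MZ

section

variable {Γ : Type*} [Group Γ] {A : Type*} [AddCommGroup A] [DistribMulAction Γ A]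

/-- a cocycle vanishes at `1` (any action) -/
theorem mzd_Z1_one (c : ↥(mzh_Z1 Γ A)) : (c : Γ → A) 1 = 0 := by
  have h := c.2 1 1
  rw [one_mul, one_smul] at h
  have h2 : (c : Γ → A) 1 + 0 = (c : Γ → A) 1 + (c : Γ → A) 1 := by rw [add_zero]; exact h
  exact (add_left_cancel h2).symm

variable (htriv : ∀ (σ : Γ) (a : A), σ • a = a)

include htriv

/-- for a trivial action, cocycles are additive -/
theorem mzd_Z1_mul (c : ↥(mzh_Z1 Γ A)) (σ τ : Γ) :
    (c : Γ → A) (σ * τ) = (c : Γ → A) σ + (c : Γ → A) τ := by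
  rw [c.2 σ τ, htriv]

/-- for a trivial action, coboundaries vanish -/
theorem mzd_B1_eq_bot : mzh_B1 Γ A = ⊥ := by
  rw [eq_bot_iff]
  intro c hc
  rw [mzh_mem_B1] at hc
  obtain ⟨a, ha⟩ := hc
  rw [AddSubgroup.mem_bot]
  funext σ
  rw [ha σ, htriv, sub_self]
  rfl

/-- for a trivial action, all elements are invariant -/
theorem mzd_H0_triv : mzh_H0 Γ A = ⊤ := by
  rw [eq_top_iff]
  intro a _
  exact fun σ => htriv σ a

/-- the character of a cocycle -/
def mzd_homOfZ1 (c : ↥(mzh_Z1 Γ A)) : Γ →* Multiplicative A where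
  toFun σ := Multiplicative.ofAdd ((c : Γ → A) σ)
  map_one' := by rw [mzd_Z1_one c]; rfl
  map_mul' σ τ := by rw [mzd_Z1_mul htriv c σ τ]; rfl

omit htriv in
@[simp] theorem mzd_homOfZ1_apply (htriv : ∀ (σ : Γ) (a : A), σ • a = a) (c : ↥(mzh_Z1 Γ A))
    (σ : Γ) : mzd_homOfZ1 htriv c σ = Multiplicative.ofAdd ((c : Γ → A) σ) := rfl

/-- the cocycle of a character -/
def mzd_Z1OfHom (χ : Γ →* Multiplicative A) : ↥(mzh_Z1 Γ A) :=
  ⟨fun σ => Multiplicative.toAdd (χ σ), by
    intro σ τ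
    show Multiplicative.toAdd (χ (σ * τ)) = Multiplicative.toAdd (χ σ) + σ • Multiplicative.toAdd (χ τ)
    rw [htriv, map_mul]
    rfl⟩

omit htriv in
@[simp] theorem mzd_Z1OfHom_apply (htriv : ∀ (σ : Γ) (a : A), σ • a = a)
    (χ : Γ →* Multiplicative A) (σ : Γ) :
    ((mzd_Z1OfHom htriv χ : ↥(mzh_Z1 Γ A)) : Γ → A) σ = Multiplicative.toAdd (χ σ) := rfl

/-- cocycles to characters, additively -/
def mzd_Z1ToHom : ↥(mzh_Z1 Γ A) →+ Additive (Γ →* Multiplicative A) where
  toFun c := Additive.ofMul (mzd_homOfZ1 htriv c)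
  map_zero' := by
    apply Additive.toMul.injective
    refine MonoidHom.ext fun σ => ?_
    rfl
  map_add' c d := by
    apply Additive.toMul.injective
    refine MonoidHom.ext fun σ => ?_
    rfl

/-- **`H¹` of a trivial module is the character group.** -/
def mzd_trivHom : mzh_H1 Γ A →+ Additive (Γ →* Multiplicative A) :=
  QuotientAddGroup.lift _ (mzd_Z1ToHom htriv) (by
    intro c hc
    rw [AddSubgroup.mem_addSubgroupOf, mzd_B1_eq_bot htriv, AddSubgroup.mem_bot] at hc
    have hc0 : c = 0 := Subtype.ext hc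
    rw [hc0]
    exact (mzd_Z1ToHom htriv).ker.zero_mem)

omit htriv in
theorem mzd_trivHom_cls (htriv : ∀ (σ : Γ) (a : A), σ • a = a) (c : ↥(mzh_Z1 Γ A)) :
    mzd_trivHom htriv (mzh_cls Γ A c) = Additive.ofMul (mzd_homOfZ1 htriv c) := rfl

theorem mzd_trivHom_bijective : Function.Bijective (mzd_trivHom htriv) := by
  constructor
  · rw [injective_iff_map_eq_zero]
    intro x hx
    obtain ⟨c, rfl⟩ := mzh_cls_surjective Γ A x
    rw [mzd_trivHom_cls] at hx
    have h1 : mzd_homOfZ1 htriv c = 1 := Additive.ofMul.injective hx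
    rw [mzh_cls_eq_zero_iff]
    refine ⟨0, fun σ => ?_⟩
    have h2 := DFunLike.congr_fun h1 σ
    rw [mzd_homOfZ1_apply] at h2
    rw [smul_zero, sub_zero]
    exact Multiplicative.ofAdd.injective h2
  · intro χ
    refine ⟨mzh_cls Γ A (mzd_Z1OfHom htriv (Additive.toMul χ)), ?_⟩
    rw [mzd_trivHom_cls]
    apply Additive.toMul.injective
    refine MonoidHom.ext fun σ => ?_
    rfl

/-- the additive equivalence `H¹(Γ, A) ≃+ Hom(Γ, A)` for a trivial action -/
noncomputable def mzd_trivEquiv : mzh_H1 Γ A ≃+ Additive (Γ →* Multiplicative A) :=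
  AddEquiv.ofBijective (mzd_trivHom htriv) (mzd_trivHom_bijective htriv)

/-- the character of a class -/
def mzd_char (x : mzh_H1 Γ A) : Γ →* Multiplicative A := Additive.toMul (mzd_trivHom htriv x)

omit htriv in
@[simp] theorem mzd_char_cls (htriv : ∀ (σ : Γ) (a : A), σ • a = a) (c : ↥(mzh_Z1 Γ A)) (σ : Γ) :
    mzd_char htriv (mzh_cls Γ A c) σ = Multiplicative.ofAdd ((c : Γ → A) σ) := rfl

theorem mzd_char_add (x y : mzh_H1 Γ A) :
    mzd_char htriv (x + y) = mzd_char htriv x * mzd_char htriv y := by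
  unfold mzd_char
  rw [map_add]
  rfl

theorem mzd_char_zero : mzd_char htriv (0 : mzh_H1 Γ A) = 1 := by
  unfold mzd_char
  rw [map_zero]
  rfl

theorem mzd_char_injective : Function.Injective (mzd_char htriv (A := A)) := by
  intro x y hxy
  apply (mzd_trivHom_bijective htriv).1
  exact Additive.toMul.injective hxy

theorem mzd_char_eq_one_iff (x : mzh_H1 Γ A) : mzd_char htriv x = 1 ↔ x = 0 := by
  constructor
  · intro h
    apply mzd_char_injective htriv
    rw [h, mzd_char_zero]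
  · rintro rfl
    exact mzd_char_zero htriv

omit htriv in
/-- every character is the character of the class of its cocycle -/
theorem mzd_char_cls_Z1OfHom (htriv : ∀ (σ : Γ) (a : A), σ • a = a) (χ : Γ →* Multiplicative A) :
    mzd_char htriv (mzh_cls Γ A (mzd_Z1OfHom htriv χ)) = χ := by
  refine MonoidHom.ext fun σ => ?_
  rfl

theorem mzd_char_surjective : Function.Surjective (mzd_char htriv (A := A)) :=
  fun χ => ⟨_, mzd_char_cls_Z1OfHom htriv χ⟩

theorem mzd_card_H1_triv : Nat.card (mzh_H1 Γ A) = Nat.card (Γ →* Multiplicative A) :=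
  Nat.card_congr (Equiv.ofBijective (mzd_char htriv)
    ⟨mzd_char_injective htriv, mzd_char_surjective htriv⟩)

/-- **restriction to a subgroup**: a class dies on `I` iff its character is trivial on `I` -/
theorem mzd_resSub_eq_zero_iff_char (I : Subgroup Γ) (x : mzh_H1 Γ A) :
    mzh_H1resSub I x = 0 ↔ ∀ σ ∈ I, mzd_char htriv x σ = 1 := by
  obtain ⟨c, rfl⟩ := mzh_cls_surjective Γ A x
  rw [mzh_H1resSub_eq_zero_iff]
  constructor
  · rintro ⟨a, ha⟩ σ hσ
    rw [mzd_char_cls, ha σ hσ, htriv, sub_self]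
    rfl
  · intro h
    refine ⟨0, fun σ hσ => ?_⟩
    have h1 := h σ hσ
    rw [mzd_char_cls] at h1
    rw [smul_zero, sub_zero]
    exact Multiplicative.ofAdd.injective h1

/-- the subgroup of classes dying on `I`, in terms of characters -/
theorem mzd_mem_ker_resSub_iff (I : Subgroup Γ) (x : mzh_H1 Γ A) :
    x ∈ (mzh_H1resSub (A := A) I).ker ↔ ∀ σ ∈ I, mzd_char htriv x σ = 1 := by
  rw [AddMonoidHom.mem_ker]
  exact mzd_resSub_eq_zero_iff_char htriv I x

end

end Fermat.Agent.MZ
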