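/-
MAZUR / node [MZ-H] (F5), glue (helper29): CONTINUITY AS A CONDITION.  `Γ` a topological group, `A` a
(discrete) `Γ`-module; no topology on `A` is used.

* `mzd_IsLC c` : `c : Γ → A` is locally constant in the uniform sense
  `∃ U ≤ Γ open, ∀ σ, ∀ u ∈ U, c (σ * u) = c σ`; `mzd_LC Γ A : AddSubgroup (Γ → A)`;
* `mzd_isLC_iff_vanish` : a COCYCLE is `IsLC` iff it vanishes on an open subgroup;
* `mzd_H1cts Γ A : AddSubgroup (mzh_H1 Γ A)` : the classes having an `IsLC` representative;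
* `mzd_OpenStab Γ A` : every `a : A` has an open stabiliser; then coboundaries are `IsLC`
  (`mzd_isLC_d0`) and EVERY representative of a class in `mzd_H1cts` is `IsLC` (`mzd_isLC_of_mem`);
* propagation: `mzd_H1cts_map` (images), `mzd_H1cts_comap` (preimages under an injective equivariant
  map into a module with open stabilisers), `mzd_H1cts_resSub` (restriction to a subgroup);
* trivial action: `mzd_mem_H1cts_iff_char` : `x ∈ H1cts ↔` the character of `x` has open kernel.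
Prefix `mzd_`.
-/
import Fermat.Agent.MZ.H.Triv

set_option autoImplicit false

namespace Fermat.Agent.MZ

section

variable (Γ : Type*) [Group Γ] [TopologicalSpace Γ] [IsTopologicalGroup Γ]
  (A : Type*) [AddCommGroup A] [DistribMulAction Γ A]

/-- uniformly locally constant maps `Γ → A` -/
def mzd_IsLC {Γ : Type*} [Group Γ] [TopologicalSpace Γ] {A : Type*} (c : Γ → A) : Prop :=
  ∃ U : Subgroup Γ, IsOpen (U : Set Γ) ∧ ∀ σ : Γ, ∀ u ∈ U, c (σ * u) = c σ

/-- the subgroup of uniformly locally constant maps -/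
def mzd_LC : AddSubgroup (Γ → A) where
  carrier := {c | mzd_IsLC c}
  zero_mem' := ⟨⊤, by simp, fun _ _ _ => rfl⟩
  add_mem' := by
    rintro c d ⟨U, hU, hc⟩ ⟨V, hV, hd⟩
    refine ⟨U ⊓ V, ?_, fun σ u hu => ?_⟩
    · rw [Subgroup.coe_inf]
      exact hU.inter hV
    · rw [Pi.add_apply, Pi.add_apply, hc σ u hu.1, hd σ u hu.2]
  neg_mem' := by
    rintro c ⟨U, hU, hc⟩
    exact ⟨U, hU, fun σ u hu => by rw [Pi.neg_apply, Pi.neg_apply, hc σ u hu]⟩

theorem mzd_mem_LC {c : Γ → A} : c ∈ mzd_LC Γ A ↔ mzd_IsLC c := Iff.rfl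

/-- the classes having a uniformly locally constant representative -/
def mzd_H1cts : AddSubgroup (mzh_H1 Γ A) :=
  ((mzd_LC Γ A).addSubgroupOf (mzh_Z1 Γ A)).map (mzh_cls Γ A)

/-- every element of `A` has an open stabiliser -/
def mzd_OpenStab : Prop :=
  ∀ a : A, ∃ U : Subgroup Γ, IsOpen (U : Set Γ) ∧ ∀ u ∈ U, u • a = a

variable {Γ A}

theorem mzd_mem_H1cts {x : mzh_H1 Γ A} :
    x ∈ mzd_H1cts Γ A ↔ ∃ c : ↥(mzh_Z1 Γ A), mzd_IsLC (c : Γ → A) ∧ mzh_cls Γ A c = x := by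
  unfold mzd_H1cts
  rw [AddSubgroup.mem_map]
  constructor
  · rintro ⟨c, hc, rfl⟩
    exact ⟨c, hc, rfl⟩
  · rintro ⟨c, hc, rfl⟩
    exact ⟨c, hc, rfl⟩

theorem mzd_cls_mem_H1cts {c : ↥(mzh_Z1 Γ A)} (hc : mzd_IsLC (c : Γ → A)) :
    mzh_cls Γ A c ∈ mzd_H1cts Γ A :=
  mzd_mem_H1cts.mpr ⟨c, hc, rfl⟩

/-- a COCYCLE is uniformly locally constant iff it vanishes on an open subgroup -/
theorem mzd_isLC_iff_vanish (c : ↥(mzh_Z1 Γ A)) :
    mzd_IsLC (c : Γ → A) ↔
      ∃ U : Subgroup Γ, IsOpen (U : Set Γ) ∧ ∀ u ∈ U, (c : Γ → A) u = 0 := by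
  constructor
  · rintro ⟨U, hU, h⟩
    refine ⟨U, hU, fun u hu => ?_⟩
    have := h 1 u hu
    rw [one_mul, mzd_Z1_one] at this
    exact this
  · rintro ⟨U, hU, h⟩
    refine ⟨U, hU, fun σ u hu => ?_⟩
    rw [c.2 σ u, h u hu, smul_zero, add_zero]

/-- coboundaries of elements with open stabiliser are uniformly locally constant -/
theorem mzd_isLC_d0 (hA : mzd_OpenStab Γ A) (a : A) : mzd_IsLC (mzh_d0 Γ A a) := by
  obtain ⟨U, hU, h⟩ := hA a
  refine ⟨U, hU, fun σ u hu => ?_⟩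
  rw [mzh_d0_apply, mzh_d0_apply, mul_smul, h u hu]

/-- with open stabilisers, EVERY representative of a continuous class is uniformly locally
constant -/
theorem mzd_isLC_of_mem (hA : mzd_OpenStab Γ A) (c : ↥(mzh_Z1 Γ A))
    (hc : mzh_cls Γ A c ∈ mzd_H1cts Γ A) : mzd_IsLC (c : Γ → A) := by
  obtain ⟨c', hc', hcc⟩ := mzd_mem_H1cts.mp hc
  obtain ⟨a, ha⟩ := (mzh_cls_eq_iff Γ A c c').mp hcc.symm
  have h1 : (c : Γ → A) = (c' : Γ → A) + mzh_d0 Γ A a := by
    funext σ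
    rw [Pi.add_apply, mzh_d0_apply, ← ha σ]
    abel
  rw [h1]
  exact (mzd_LC Γ A).add_mem hc' (mzd_isLC_d0 hA a)

theorem mzd_cls_mem_H1cts_iff (hA : mzd_OpenStab Γ A) (c : ↥(mzh_Z1 Γ A)) :
    mzh_cls Γ A c ∈ mzd_H1cts Γ A ↔ mzd_IsLC (c : Γ → A) :=
  ⟨mzd_isLC_of_mem hA c, mzd_cls_mem_H1cts⟩

/-! ### Propagation -/

variable {B : Type*} [AddCommGroup B] [DistribMulAction Γ B]

/-- images of continuous classes are continuous -/
theorem mzd_H1cts_map (f : A →+ B) (hf : ∀ (σ : Γ) (a : A), f (σ • a) = σ • f a) :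
    (mzd_H1cts Γ A).map (mzh_H1map f hf) ≤ mzd_H1cts Γ B := by
  rintro y ⟨x, hx, rfl⟩
  obtain ⟨c, ⟨U, hU, hc⟩, rfl⟩ := mzd_mem_H1cts.mp hx
  rw [mzh_H1map_cls]
  refine mzd_cls_mem_H1cts ⟨U, hU, fun σ u hu => ?_⟩
  rw [mzh_Z1map_apply, mzh_Z1map_apply, hc σ u hu]

/-- preimages of continuous classes under an INJECTIVE equivariant map into a module with open
stabilisers are continuous -/
theorem mzd_H1cts_comap (f : A →+ B) (hf : ∀ (σ : Γ) (a : A), f (σ • a) = σ • f a)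
    (hinj : Function.Injective f) (hB : mzd_OpenStab Γ B) :
    (mzd_H1cts Γ B).comap (mzh_H1map f hf) ≤ mzd_H1cts Γ A := by
  intro x hx
  obtain ⟨c, rfl⟩ := mzh_cls_surjective Γ A x
  rw [AddSubgroup.mem_comap, mzh_H1map_cls] at hx
  obtain ⟨U, hU, h⟩ := mzd_isLC_of_mem hB _ hx
  refine mzd_cls_mem_H1cts ⟨U, hU, fun σ u hu => ?_⟩
  apply hinj
  have := h σ u hu
  rw [mzh_Z1map_apply, mzh_Z1map_apply] at this
  exact this

/-- `L ≤ H1cts` propagates to preimages -/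
theorem mzd_comap_le_H1cts (f : A →+ B) (hf : ∀ (σ : Γ) (a : A), f (σ • a) = σ • f a)
    (hinj : Function.Injective f) (hB : mzd_OpenStab Γ B) (L : AddSubgroup (mzh_H1 Γ B))
    (hL : L ≤ mzd_H1cts Γ B) : L.comap (mzh_H1map f hf) ≤ mzd_H1cts Γ A :=
  fun _ hx => mzd_H1cts_comap f hf hinj hB (hL hx)

/-- `L ≤ H1cts` propagates to images -/
theorem mzd_map_le_H1cts (f : A →+ B) (hf : ∀ (σ : Γ) (a : A), f (σ • a) = σ • f a)
    (L : AddSubgroup (mzh_H1 Γ A)) (hL : L ≤ mzd_H1cts Γ A) :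
    L.map (mzh_H1map f hf) ≤ mzd_H1cts Γ B := by
  rintro y ⟨x, hx, rfl⟩
  exact mzd_H1cts_map f hf ⟨x, hL hx, rfl⟩

/-- open stabilisers pass to the source of an injective equivariant map -/
theorem mzd_openStab_of_injective (f : A →+ B) (hf : ∀ (σ : Γ) (a : A), f (σ • a) = σ • f a)
    (hinj : Function.Injective f) (hB : mzd_OpenStab Γ B) : mzd_OpenStab Γ A := by
  intro a
  obtain ⟨U, hU, h⟩ := hB (f a)
  exact ⟨U, hU, fun u hu => hinj (by rw [hf, h u hu])⟩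

/-- open stabilisers pass to the target of a surjective equivariant map -/
theorem mzd_openStab_of_surjective (g : A →+ B) (hg : ∀ (σ : Γ) (a : A), g (σ • a) = σ • g a)
    (hsurj : Function.Surjective g) (hA : mzd_OpenStab Γ A) : mzd_OpenStab Γ B := by
  intro b
  obtain ⟨a, rfl⟩ := hsurj b
  obtain ⟨U, hU, h⟩ := hA a
  exact ⟨U, hU, fun u hu => by rw [← hg, h u hu]⟩

/-- a finite module on which an open subgroup acts trivially has open stabilisers -/
theorem mzd_openStab_of_open_triv (U : Subgroup Γ) (hU : IsOpen (U : Set Γ))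
    (h : ∀ u ∈ U, ∀ a : A, u • a = a) : mzd_OpenStab Γ A :=
  fun a => ⟨U, hU, fun u hu => h u hu a⟩

/-! ### Restriction to a subgroup -/

/-- restriction of a continuous class to a subgroup (subspace topology) is continuous -/
theorem mzd_H1cts_resSub (I : Subgroup Γ) :
    (mzd_H1cts Γ A).map (mzh_H1resSub I) ≤ mzd_H1cts ↥I A := by
  rintro y ⟨x, hx, rfl⟩
  obtain ⟨c, ⟨U, hU, hc⟩, rfl⟩ := mzd_mem_H1cts.mp hx
  rw [mzh_H1resSub_cls]
  refine mzd_cls_mem_H1cts ⟨U.subgroupOf I, ?_, fun σ u hu => ?_⟩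
  · exact hU.preimage continuous_subtype_val
  · rw [mzh_Z1res_apply, mzh_Z1res_apply, map_mul]
    exact hc _ _ hu

/-! ### Trivial action -/

/-- for a trivial action: a class is continuous iff its character has open kernel -/
theorem mzd_mem_H1cts_iff_char (htriv : ∀ (σ : Γ) (a : A), σ • a = a) (x : mzh_H1 Γ A) :
    x ∈ mzd_H1cts Γ A ↔ IsOpen ((mzd_char htriv x).ker : Set Γ) := by
  obtain ⟨c, rfl⟩ := mzh_cls_surjective Γ A x
  constructor
  · intro hx
    have hA : mzd_OpenStab Γ A := fun a => ⟨⊤, by simp, fun u _ => htriv u a⟩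
    obtain ⟨U, hU, h⟩ := (mzd_isLC_iff_vanish c).mp (mzd_isLC_of_mem hA c hx)
    refine Subgroup.isOpen_mono (H₁ := U) (fun u hu => ?_) hU
    rw [MonoidHom.mem_ker, mzd_char_cls, h u hu]
    rfl
  · intro hk
    refine mzd_cls_mem_H1cts ((mzd_isLC_iff_vanish c).mpr ⟨_, hk, fun u hu => ?_⟩)
    rw [MonoidHom.mem_ker, mzd_char_cls] at hu
    exact Multiplicative.ofAdd.injective hu

end

end Fermat.Agent.MZ
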