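/-
Project MAZUR (S15), cell [MZ-H5] (helper9): simple `Γ`-modules and the existence of a minimal
nonzero stable subgroup of a finite nontrivial module.
Prefix `mzh_`.
-/
import Fermat.Agent.MZ.H.Coh

set_option autoImplicit false
set_option linter.style.haveILetI false

namespace Fermat.Agent.MZ

/-- A `Γ`-module is simple: nontrivial, and the only stable subgroups are `⊥` and `⊤`. -/
def mzh_IsSimple (Γ : Type*) [Group Γ] (A : Type*) [AddCommGroup A] [DistribMulAction Γ A] :
    Prop :=
  Nontrivial A ∧ ∀ F : AddSubgroup A, mzh_Stable Γ F → F = ⊥ ∨ F = ⊤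

/-- A finite nontrivial module has a minimal nonzero stable subgroup, which is a simple module. -/
theorem mzh_exists_simple_sub (Γ : Type*) [Group Γ] (G : Type*) [AddCommGroup G]
    [DistribMulAction Γ G] [Finite G] [Nontrivial G] :
    ∃ (F : AddSubgroup G) (hF : mzh_Stable Γ F), F ≠ ⊥ ∧
      @mzh_IsSimple Γ _ ↥F _ (mzh_subAction F hF) := by
  classical
  let S : Set (AddSubgroup G) := {F | mzh_Stable Γ F ∧ F ≠ ⊥}
  have hS : S.Nonempty := ⟨⊤, fun σ a _ => AddSubgroup.mem_top _, top_ne_bot⟩
  obtain ⟨F, ⟨hF, hFne⟩, hmin⟩ :=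
    WellFounded.has_min (measure (fun F : AddSubgroup G => Nat.card ↥F)).wf S hS
  refine ⟨F, hF, hFne, (AddSubgroup.nontrivial_iff_ne_bot F).mpr hFne, ?_⟩
  intro F'' hF''
  by_cases hbot : F'' = ⊥
  · exact Or.inl hbot
  · right
    -- the image of `F''` in `G`
    have hst : mzh_Stable Γ (F''.map F.subtype) := by
      rintro σ a ⟨x, hx, rfl⟩
      exact ⟨(letI := mzh_subAction F hF; σ • x), hF'' σ x hx, rfl⟩
    have hne : F''.map F.subtype ≠ ⊥ := by
      intro h0
      apply hbot
      rw [eq_bot_iff]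
      intro x hx
      have : F.subtype x ∈ F''.map F.subtype := ⟨x, hx, rfl⟩
      rw [h0, AddSubgroup.mem_bot] at this
      rw [AddSubgroup.mem_bot]
      exact Subtype.ext this
    have hcard := hmin (F''.map F.subtype) ⟨hst, hne⟩
    have hcard' : Nat.card ↥F ≤ Nat.card ↥(F''.map F.subtype) := not_lt.mp hcard
    have heq : Nat.card ↥(F''.map F.subtype) = Nat.card ↥F'' :=
      (Nat.card_congr (F''.equivMapOfInjective F.subtype Subtype.val_injective).toEquiv).symm
    rw [heq] at hcard'
    exact AddSubgroup.eq_top_of_le_card F'' hcard'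

end Fermat.Agent.MZ
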