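/-
Project MAZUR (S15), cell [MZ-H5] (helper9): ONE STEP of the devissage (Mazur I.1.7 in Galois
form).  For a short exact sequence `0 → A → B → C → 0` of `Γ`-modules and an ARBITRARY subgroup
`L ≤ H¹(Γ, B)` (the "Selmer group"), with the PROPAGATED conditions
`L_A := preimage of L in H¹(Γ, A)` and `L_C := image of L in H¹(Γ, C)`:

  `|L| · (|A^Γ| · |C^Γ|) = |L_A| · |L_C| · |B^Γ|`          (`mzh_step`)

(an identity of `Nat.card`s; no finiteness hypothesis is needed for the identity itself).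
Also: the GOOD criterion (`mzh_good`): if `B^I → C^I` is onto for a subgroup `I ≤ Γ`, a class of
`H¹(Γ, A)` whose image in `H¹(Γ, B)` dies on `I` dies on `I`.
Prefix `mzh_`.
-/
import Fermat.Agent.MZ.H.Exact

set_option autoImplicit false
set_option linter.style.haveILetI false

namespace Fermat.Agent.MZ

section

variable {Γ : Type*} [Group Γ] {A B C : Type*} [AddCommGroup A] [DistribMulAction Γ A]
  [AddCommGroup B] [DistribMulAction Γ B] [AddCommGroup C] [DistribMulAction Γ C]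
  {f : A →+ B} {g : B →+ C}

/-- **One step of the devissage**, exact form. -/
theorem mzh_step (h : mzh_IsSES Γ f g) (L : AddSubgroup (mzh_H1 Γ B)) :
    Nat.card ↥L * (Nat.card ↥(mzh_H0 Γ A) * Nat.card ↥(mzh_H0 Γ C)) =
      Nat.card ↥(L.comap (mzh_H1map f h.f_smul)) * Nat.card ↥(L.map (mzh_H1map g h.g_smul)) *
        Nat.card ↥(mzh_H0 Γ B) := by
  have h1 := mzh_card_selmer (mzh_H1map f h.f_smul) (mzh_H1map g h.g_smul)
    (mzh_exact_H1_mid h) L
  have h2 := mzh_card_ker_H1map h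
  calc Nat.card ↥L * (Nat.card ↥(mzh_H0 Γ A) * Nat.card ↥(mzh_H0 Γ C))
      = Nat.card ↥L * (Nat.card ↥(mzh_H0 Γ C) * Nat.card ↥(mzh_H0 Γ A)) := by ring
    _ = Nat.card ↥L * (Nat.card ↥(mzh_H0 Γ B) * Nat.card ↥(mzh_H1map f h.f_smul).ker) := by
        rw [h2]
    _ = (Nat.card ↥L * Nat.card ↥(mzh_H1map f h.f_smul).ker) * Nat.card ↥(mzh_H0 Γ B) := by ring
    _ = _ := by rw [h1]

/-- The inequality form of the step (what the descent uses). -/
theorem mzh_step_le (h : mzh_IsSES Γ f g) (L : AddSubgroup (mzh_H1 Γ B)) :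
    Nat.card ↥L * (Nat.card ↥(mzh_H0 Γ A) * Nat.card ↥(mzh_H0 Γ C)) ≤
      Nat.card ↥(L.comap (mzh_H1map f h.f_smul)) * Nat.card ↥(L.map (mzh_H1map g h.g_smul)) *
        Nat.card ↥(mzh_H0 Γ B) :=
  (mzh_step h L).le

/-- **GOOD ⟹ the propagated condition stays unramified**: if `B^I → C^I` is onto, then a class
`x ∈ H¹(Γ, A)` whose image in `H¹(Γ, B)` restricts to `0` on `I` restricts to `0` on `I`. -/
theorem mzh_good (h : mzh_IsSES Γ f g) (I : Subgroup Γ)
    (hgood : ∀ γ ∈ mzh_H0 ↥I C, ∃ b ∈ mzh_H0 ↥I B, g b = γ) (x : mzh_H1 Γ A)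
    (hx : mzh_H1resSub I (mzh_H1map f h.f_smul x) = 0) : mzh_H1resSub I x = 0 := by
  rw [mzh_H1resSub_H1map] at hx
  have hinj := mzh_H1map_injective_of_surjective (h.resSub I) hgood
  exact hinj (by rw [hx, map_zero])

/-- GOOD in the form used by the descent: the preimage of a subgroup of unramified classes is
unramified. -/
theorem mzh_good_comap (h : mzh_IsSES Γ f g) (I : Subgroup Γ)
    (hgood : ∀ γ ∈ mzh_H0 ↥I C, ∃ b ∈ mzh_H0 ↥I B, g b = γ) (L : AddSubgroup (mzh_H1 Γ B))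
    (hL : L ≤ (mzh_H1resSub I).ker) :
    L.comap (mzh_H1map f h.f_smul) ≤ (mzh_H1resSub I).ker := by
  intro x hx
  exact mzh_good h I hgood x (hL hx)

/-- The image of a subgroup of unramified classes is unramified. -/
theorem mzh_map_unram (h : mzh_IsSES Γ f g) (I : Subgroup Γ) (L : AddSubgroup (mzh_H1 Γ B))
    (hL : L ≤ (mzh_H1resSub I).ker) :
    L.map (mzh_H1map g h.g_smul) ≤ (mzh_H1resSub I).ker := by
  rintro y ⟨x, hx, rfl⟩
  rw [AddMonoidHom.mem_ker, mzh_H1resSub_H1map, (AddMonoidHom.mem_ker).mp (hL hx), map_zero]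

end

section SubQuot

variable {Γ : Type*} [Group Γ] {G : Type*} [AddCommGroup G] [DistribMulAction Γ G]

/-- The short exact sequence `0 → F → G → G ⧸ F → 0` of a stable subgroup. -/
theorem mzh_isSES_subQuot (F : AddSubgroup G) (hF : mzh_Stable Γ F) :
    @mzh_IsSES Γ _ ↥F G (G ⧸ F) _ (mzh_subAction F hF) _ _ _ (mzh_quotAction F hF)
      F.subtype (QuotientAddGroup.mk' F) := by
  letI := mzh_subAction F hF
  letI := mzh_quotAction F hF
  refine ⟨fun σ a => rfl, fun σ b => rfl, Subtype.val_injective,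
    QuotientAddGroup.mk'_surjective F, fun b => ?_⟩
  rw [QuotientAddGroup.mk'_apply, QuotientAddGroup.eq_zero_iff]
  constructor
  · intro hb
    exact ⟨⟨b, hb⟩, rfl⟩
  · rintro ⟨a, rfl⟩
    exact a.2

end SubQuot

end Fermat.Agent.MZ
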