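/-
Project MAZUR (S15), cell [MZ-H5] (helper9): THE ABSTRACT EISENSTEIN-DESCENT INDUCTION
(Mazur I.1.7 in Galois form, (F5) of lead ruling #31).

`Γ` a group, `I ≤ Γ` a subgroup ("inertia at `p`"), `r` a prime.  `P G L` is a property of pairs
(finite `Γ`-module `G`, subgroup `L ≤ H¹(Γ, G)`) ("`L` is a Selmer group for `G`"), `Z G` a
multiplicative weight (`r ^ #(Z/r-constituents)` in the application).  Hypotheses
(`mzh_IsDescent`):
* `P` passes to quotients by simple submodules, with the IMAGE of `L`;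
* `P G L` forces `L` to be unramified on `I`;
* `Z` is submultiplicative along `0 → A → B → C → 0` with `A` simple, `Z 0 ≤ 1`;
* LEAVES (`A ⊆ B` simple, `L_A :=` PREIMAGE of `L`): `L_A` finite, and
  GOOD (`L_A` unramified on `I`): `|L_A| · Z A · |A^I| ≤ |A^Γ| · |A|`,
  BAD (always):                    `|L_A| · Z A · |A^I| ≤ |A^Γ| · |A| · r`.
Conclusion (`mzh_descent`): for every finite `G` of `r`-power order and `P G L`:
  `L` is finite and `|L| · Z G · |G^I| ≤ |G^Γ| · |G|`,
i.e. `h¹_L(G) - h⁰(G) ≤ -z(G) + (length G - length G^I)`.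
Prefix `mzh_`.
-/
import Fermat.Agent.MZ.H.Step
import Fermat.Agent.MZ.H.Simple

set_option autoImplicit false
set_option linter.style.haveILetI false

namespace Fermat.Agent.MZ

universe u v

/-- The hypotheses of the abstract descent. -/
structure mzh_IsDescent {Γ : Type v} [Group Γ] (I : Subgroup Γ) (r : ℕ)
    (P : ∀ (G : Type u) [AddCommGroup G] [DistribMulAction Γ G],
      AddSubgroup (mzh_H1 Γ G) → Prop)
    (Z : ∀ (G : Type u) [AddCommGroup G] [DistribMulAction Γ G], ℕ) : Prop where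
  Z_zero : ∀ (G : Type u) [AddCommGroup G] [DistribMulAction Γ G], Subsingleton G → Z G ≤ 1
  Z_mul : ∀ (A B C : Type u) [AddCommGroup A] [DistribMulAction Γ A] [AddCommGroup B]
    [DistribMulAction Γ B] [AddCommGroup C] [DistribMulAction Γ C] (f : A →+ B) (g : B →+ C),
    mzh_IsSES Γ f g → Finite B → mzh_IsSimple Γ A → Z B ≤ Z A * Z C
  unram : ∀ (G : Type u) [AddCommGroup G] [DistribMulAction Γ G]
    (L : AddSubgroup (mzh_H1 Γ G)), P G L → L ≤ (mzh_H1resSub I).ker
  quot : ∀ (A B C : Type u) [AddCommGroup A] [DistribMulAction Γ A] [AddCommGroup B]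
    [DistribMulAction Γ B] [AddCommGroup C] [DistribMulAction Γ C] (f : A →+ B) (g : B →+ C)
    (h : mzh_IsSES Γ f g), Finite B → mzh_IsSimple Γ A →
    ∀ L : AddSubgroup (mzh_H1 Γ B), P B L → P C (L.map (mzh_H1map g h.g_smul))
  leaf_finite : ∀ (A B C : Type u) [AddCommGroup A] [DistribMulAction Γ A] [AddCommGroup B]
    [DistribMulAction Γ B] [AddCommGroup C] [DistribMulAction Γ C] (f : A →+ B) (g : B →+ C)
    (h : mzh_IsSES Γ f g), Finite B → mzh_IsSimple Γ A →
    ∀ L : AddSubgroup (mzh_H1 Γ B), P B L → Finite ↥(L.comap (mzh_H1map f h.f_smul))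
  leaf_good : ∀ (A B C : Type u) [AddCommGroup A] [DistribMulAction Γ A] [AddCommGroup B]
    [DistribMulAction Γ B] [AddCommGroup C] [DistribMulAction Γ C] (f : A →+ B) (g : B →+ C)
    (h : mzh_IsSES Γ f g), Finite B → (∃ n : ℕ, Nat.card B = r ^ n) → mzh_IsSimple Γ A →
    ∀ L : AddSubgroup (mzh_H1 Γ B), P B L →
    L.comap (mzh_H1map f h.f_smul) ≤ (mzh_H1resSub I).ker →
    Nat.card ↥(L.comap (mzh_H1map f h.f_smul)) * Z A * Nat.card ↥(mzh_H0 ↥I A) ≤
      Nat.card ↥(mzh_H0 Γ A) * Nat.card A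
  leaf_bad : ∀ (A B C : Type u) [AddCommGroup A] [DistribMulAction Γ A] [AddCommGroup B]
    [DistribMulAction Γ B] [AddCommGroup C] [DistribMulAction Γ C] (f : A →+ B) (g : B →+ C)
    (h : mzh_IsSES Γ f g), Finite B → (∃ n : ℕ, Nat.card B = r ^ n) → mzh_IsSimple Γ A →
    ∀ L : AddSubgroup (mzh_H1 Γ B), P B L →
    Nat.card ↥(L.comap (mzh_H1map f h.f_smul)) * Z A * Nat.card ↥(mzh_H0 ↥I A) ≤
      Nat.card ↥(mzh_H0 Γ A) * Nat.card A * r

/-- `H¹` of a trivial module is trivial. -/
theorem mzh_H1_subsingleton (Γ : Type*) [Group Γ] (G : Type*) [AddCommGroup G]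
    [DistribMulAction Γ G] [Subsingleton G] : Subsingleton (mzh_H1 Γ G) := by
  refine ⟨fun x y => ?_⟩
  obtain ⟨c, rfl⟩ := mzh_cls_surjective Γ G x
  obtain ⟨d, rfl⟩ := mzh_cls_surjective Γ G y
  congr 1
  apply Subtype.ext
  funext σ
  exact Subsingleton.elim _ _

/-- The numerical heart of one induction step. -/
theorem mzh_descent_arith {a zG iG cG nG aF zF iF cF nF aQ zQ iQ cQ nQ k : ℕ}
    (h1 : a * (cF * cQ) = aF * aQ * cG) (h2 : iQ * iF = iG * k) (h3 : nG = nQ * nF)
    (h4 : aQ * zQ * iQ ≤ cQ * nQ) (h5 : aF * zF * iF ≤ cF * nF * k) (h6 : zG ≤ zF * zQ)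
    (hcF : 0 < cF) (hcQ : 0 < cQ) (hk : 0 < k) : a * zG * iG ≤ cG * nG := by
  have hpos : 0 < cF * cQ * k := Nat.mul_pos (Nat.mul_pos hcF hcQ) hk
  apply Nat.le_of_mul_le_mul_left _ hpos
  calc cF * cQ * k * (a * zG * iG) = (a * (cF * cQ)) * zG * (iG * k) := by ring
    _ = (aF * aQ * cG) * zG * (iQ * iF) := by rw [h1, h2]
    _ ≤ (aF * aQ * cG) * (zF * zQ) * (iQ * iF) :=
        Nat.mul_le_mul_right _ (Nat.mul_le_mul_left _ h6)
    _ = cG * ((aF * zF * iF) * (aQ * zQ * iQ)) := by ring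
    _ ≤ cG * ((cF * nF * k) * (cQ * nQ)) :=
        Nat.mul_le_mul_left _ (Nat.mul_le_mul h5 h4)
    _ = cF * cQ * k * (cG * nG) := by rw [h3]; ring

/-- **The abstract Eisenstein descent.** -/
theorem mzh_descent {Γ : Type v} [Group Γ] (I : Subgroup Γ) (r : ℕ) (hr : r.Prime)
    (P : ∀ (G : Type u) [AddCommGroup G] [DistribMulAction Γ G],
      AddSubgroup (mzh_H1 Γ G) → Prop)
    (Z : ∀ (G : Type u) [AddCommGroup G] [DistribMulAction Γ G], ℕ)
    (hD : mzh_IsDescent I r P Z)
    (G : Type u) [AddCommGroup G] [DistribMulAction Γ G] [Finite G]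
    (hG : ∃ n : ℕ, Nat.card G = r ^ n) (L : AddSubgroup (mzh_H1 Γ G)) (hPL : P G L) :
    Finite ↥L ∧
      Nat.card ↥L * Z G * Nat.card ↥(mzh_H0 ↥I G) ≤ Nat.card ↥(mzh_H0 Γ G) * Nat.card G := by
  suffices H : ∀ n : ℕ, ∀ (G : Type u) [AddCommGroup G] [DistribMulAction Γ G] [Finite G],
      Nat.card G = n → (∃ m : ℕ, Nat.card G = r ^ m) → ∀ L : AddSubgroup (mzh_H1 Γ G), P G L →
      (Finite ↥L ∧
        Nat.card ↥L * Z G * Nat.card ↥(mzh_H0 ↥I G) ≤ Nat.card ↥(mzh_H0 Γ G) * Nat.card G) from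
    H _ G rfl hG L hPL
  intro n
  induction n using Nat.strong_induction_on with
  | _ n ih =>
    intro G _ _ _ hn hG L hPL
    by_cases htriv : Subsingleton G
    · -- base case
      haveI := htriv
      haveI := mzh_H1_subsingleton Γ G
      refine ⟨inferInstance, ?_⟩
      have e1 : Nat.card ↥L = 1 := Nat.card_unique
      have e2 : Nat.card ↥(mzh_H0 ↥I G) = 1 := Nat.card_unique
      have e3 : Nat.card ↥(mzh_H0 Γ G) = 1 := Nat.card_unique
      have e4 : Nat.card G = 1 := Nat.card_unique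
      rw [e1, e2, e3, e4]
      simpa using hD.Z_zero G htriv
    · haveI : Nontrivial G := not_subsingleton_iff_nontrivial.mp htriv
      obtain ⟨F, hF, hFne, hsimple⟩ := mzh_exists_simple_sub Γ G
      letI iF := mzh_subAction F hF
      letI iQ := mzh_quotAction F hF
      have hses : mzh_IsSES Γ F.subtype (QuotientAddGroup.mk' F) := mzh_isSES_subQuot F hF
      haveI : Finite (G ⧸ F) := Finite.of_surjective _ (QuotientAddGroup.mk'_surjective F)
      haveI : Nontrivial ↥F := (AddSubgroup.nontrivial_iff_ne_bot F).mpr hFne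
      -- cardinalities
      have hcard : Nat.card G = Nat.card (G ⧸ F) * Nat.card ↥F :=
        AddSubgroup.card_eq_card_quotient_mul_card_addSubgroup F
      have hQpos : 0 < Nat.card (G ⧸ F) := Nat.card_pos
      have hF2 : 1 < Nat.card ↥F := Finite.one_lt_card
      have hlt : Nat.card (G ⧸ F) < n := by
        rw [← hn, hcard]
        calc Nat.card (G ⧸ F) = Nat.card (G ⧸ F) * 1 := (mul_one _).symm
          _ < Nat.card (G ⧸ F) * Nat.card ↥F := Nat.mul_lt_mul_of_pos_left hF2 hQpos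
      obtain ⟨m, hm⟩ := hG
      have hQpow : ∃ j : ℕ, Nat.card (G ⧸ F) = r ^ j := by
        have hdvd : Nat.card (G ⧸ F) ∣ r ^ m := by
          rw [← hm, hcard]
          exact dvd_mul_right _ _
        obtain ⟨j, _, hj⟩ := (Nat.dvd_prime_pow hr).mp hdvd
        exact ⟨j, hj⟩
      -- the three ingredients
      have hPQ := hD.quot ↥F G (G ⧸ F) F.subtype (QuotientAddGroup.mk' F) hses inferInstance
        hsimple L hPL
      obtain ⟨hfinQ, hineqQ⟩ := ih _ hlt (G ⧸ F) rfl hQpow _ hPQ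
      have hfinF := hD.leaf_finite ↥F G (G ⧸ F) F.subtype (QuotientAddGroup.mk' F) hses
        inferInstance hsimple L hPL
      have hstep := mzh_step hses L
      have hI := mzh_card_ker_H1map (hses.resSub I)
      -- abbreviations
      set k := Nat.card ↥(mzh_H1map (Γ := ↥I) F.subtype (hses.resSub I).f_smul).ker with hkdef
      have hiFpos : 0 < Nat.card ↥(mzh_H0 ↥I ↥F) := Nat.card_pos
      have hiQpos : 0 < Nat.card ↥(mzh_H0 ↥I (G ⧸ F)) := Nat.card_pos
      have hkpos : 0 < k := by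
        rcases Nat.eq_zero_or_pos k with h0 | h0
        · exfalso
          rw [h0, mul_zero] at hI
          exact absurd hI (Nat.mul_pos hiQpos hiFpos).ne'
        · exact h0
      -- `k` is a power of `r`
      have hkpow : k = 1 ∨ r ≤ k := by
        have hd1 : k ∣ Nat.card ↥(mzh_H0 ↥I (G ⧸ F)) * Nat.card ↥(mzh_H0 ↥I ↥F) :=
          ⟨Nat.card ↥(mzh_H0 ↥I G), by rw [hI, mul_comm]⟩
        have hd2 : Nat.card ↥(mzh_H0 ↥I (G ⧸ F)) * Nat.card ↥(mzh_H0 ↥I ↥F) ∣ r ^ m := by
          rw [← hm, hcard]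
          exact Nat.mul_dvd_mul (AddSubgroup.card_addSubgroup_dvd_card _)
            (AddSubgroup.card_addSubgroup_dvd_card _)
        obtain ⟨j, _, hj⟩ := (Nat.dvd_prime_pow hr).mp (hd1.trans hd2)
        rcases Nat.eq_zero_or_pos j with h0 | h0
        · left
          rw [hj, h0, pow_zero]
        · right
          rw [hj]
          calc r = r ^ 1 := (pow_one r).symm
            _ ≤ r ^ j := Nat.pow_le_pow_right hr.pos h0
      -- the leaf inequality
      have hleaf : Nat.card ↥(L.comap (mzh_H1map F.subtype hses.f_smul)) * Z ↥F *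
          Nat.card ↥(mzh_H0 ↥I ↥F) ≤ Nat.card ↥(mzh_H0 Γ ↥F) * Nat.card ↥F * k := by
        rcases hkpow with hk1 | hkr
        · -- GOOD
          have hbot : (mzh_H1map (Γ := ↥I) F.subtype (hses.resSub I).f_smul).ker = ⊥ :=
            AddSubgroup.eq_bot_of_card_eq _ hk1
          have hinj : Function.Injective
              (mzh_H1map (Γ := ↥I) F.subtype (hses.resSub I).f_smul) :=
            (AddMonoidHom.ker_eq_bot_iff _).mp hbot
          have hunr : L.comap (mzh_H1map F.subtype hses.f_smul) ≤ (mzh_H1resSub I).ker := by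
            intro x hx
            have h1 : mzh_H1map F.subtype hses.f_smul x ∈ (mzh_H1resSub I).ker :=
              hD.unram G L hPL hx
            rw [AddMonoidHom.mem_ker, mzh_H1resSub_H1map] at h1
            rw [AddMonoidHom.mem_ker]
            exact hinj (by rw [h1, map_zero])
          have := hD.leaf_good ↥F G (G ⧸ F) F.subtype (QuotientAddGroup.mk' F) hses
            inferInstance ⟨m, hm⟩ hsimple L hPL hunr
          rw [hk1, mul_one]
          exact this
        · -- BAD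
          have := hD.leaf_bad ↥F G (G ⧸ F) F.subtype (QuotientAddGroup.mk' F) hses
            inferInstance ⟨m, hm⟩ hsimple L hPL
          exact this.trans (Nat.mul_le_mul_left _ hkr)
      have hZ := hD.Z_mul ↥F G (G ⧸ F) F.subtype (QuotientAddGroup.mk' F) hses inferInstance
        hsimple
      have hcF : 0 < Nat.card ↥(mzh_H0 Γ ↥F) := Nat.card_pos
      have hcQ : 0 < Nat.card ↥(mzh_H0 Γ (G ⧸ F)) := Nat.card_pos
      haveI := hfinQ
      haveI := hfinF
      constructor
      · -- finiteness of `L`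
        have hLF : 0 < Nat.card ↥(L.comap (mzh_H1map F.subtype hses.f_smul)) := Nat.card_pos
        have hLQ : 0 < Nat.card ↥(L.map (mzh_H1map (QuotientAddGroup.mk' F) hses.g_smul)) :=
          Nat.card_pos
        have hcG : 0 < Nat.card ↥(mzh_H0 Γ G) := Nat.card_pos
        have hne : Nat.card ↥L ≠ 0 := by
          intro h0
          rw [h0, zero_mul] at hstep
          exact absurd hstep.symm (Nat.mul_pos (Nat.mul_pos hLF hLQ) hcG).ne'
        exact Nat.finite_of_card_ne_zero hne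
      · exact mzh_descent_arith hstep hI hcard hineqQ hleaf hZ hcF hcQ hkpos

end Fermat.Agent.MZ
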