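/-
Project MAZUR (S15), cell [MZ-H5] (helper9): THE DESCENT INDUCTION, OBJECT-INDEXED FORM WITH FREE
LEAVES.  Same as `mzh_descent_gen` (`MZ/H/InductGen.lean`) except that the leaf of a step is an
arbitrary bundled `Γ`-module `W : mzh_Mod Γ` with its own weight `zW : ℕ` (it need not be one of
the objects), so that the consumer's object type only contains the quotients `G / F_j`.
Prefix `mzh_`.
-/
import Fermat.Agent.MZ.H.Induct

set_option autoImplicit false
set_option linter.style.haveILetI false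

namespace Fermat.Agent.MZ

universe u v w

/-- A bundled `Γ`-module. -/
structure mzh_Mod (Γ : Type v) [Group Γ] where
  carrier : Type u
  [grp : AddCommGroup carrier]
  [act : DistribMulAction Γ carrier]

attribute [instance] mzh_Mod.grp mzh_Mod.act

/-- The step hypothesis of the object-indexed descent at the object `X`. -/
def mzh_HasStepMod {Γ : Type v} [Group Γ] (I : Subgroup Γ) (r : ℕ) {𝒪 : Type w} (M : 𝒪 → Type u)
    [∀ X, AddCommGroup (M X)] [∀ X, DistribMulAction Γ (M X)]
    (Sel : ∀ X, AddSubgroup (mzh_H1 Γ (M X))) (Z : 𝒪 → ℕ) (X : 𝒪) : Prop :=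
  (Subsingleton (M X) ∧ Z X ≤ 1) ∨
  ∃ (W : mzh_Mod.{u, v} Γ) (zW : ℕ) (Y : 𝒪) (f : W.carrier →+ M X) (g : M X →+ M Y)
    (h : mzh_IsSES Γ f g),
    Nontrivial W.carrier ∧ Z X ≤ zW * Z Y ∧ Sel X ≤ (mzh_H1resSub I).ker ∧
    (Sel X).map (mzh_H1map g h.g_smul) ≤ Sel Y ∧
    Finite ↥((Sel X).comap (mzh_H1map f h.f_smul)) ∧
    ((Sel X).comap (mzh_H1map f h.f_smul) ≤ (mzh_H1resSub I).ker →
      Nat.card ↥((Sel X).comap (mzh_H1map f h.f_smul)) * zW * Nat.card ↥(mzh_H0 ↥I W.carrier) ≤
        Nat.card ↥(mzh_H0 Γ W.carrier) * Nat.card W.carrier) ∧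
    Nat.card ↥((Sel X).comap (mzh_H1map f h.f_smul)) * zW * Nat.card ↥(mzh_H0 ↥I W.carrier) ≤
      Nat.card ↥(mzh_H0 Γ W.carrier) * Nat.card W.carrier * r

/-- **The Eisenstein descent, object-indexed form.** -/
theorem mzh_descent_mod {Γ : Type v} [Group Γ] (I : Subgroup Γ) (r : ℕ) (hr : r.Prime)
    {𝒪 : Type w} (M : 𝒪 → Type u) [∀ X, AddCommGroup (M X)] [∀ X, DistribMulAction Γ (M X)]
    (Sel : ∀ X, AddSubgroup (mzh_H1 Γ (M X))) (Z : 𝒪 → ℕ)
    (hstep : ∀ X : 𝒪, Finite (M X) → (∃ n : ℕ, Nat.card (M X) = r ^ n) →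
      mzh_HasStepMod I r M Sel Z X)
    (X : 𝒪) [Finite (M X)] (hX : ∃ n : ℕ, Nat.card (M X) = r ^ n) :
    Finite ↥(Sel X) ∧
      Nat.card ↥(Sel X) * Z X * Nat.card ↥(mzh_H0 ↥I (M X)) ≤
        Nat.card ↥(mzh_H0 Γ (M X)) * Nat.card (M X) := by
  suffices H : ∀ n : ℕ, ∀ X : 𝒪, Finite (M X) → Nat.card (M X) = n →
      (∃ m : ℕ, Nat.card (M X) = r ^ m) →
      (Finite ↥(Sel X) ∧
        Nat.card ↥(Sel X) * Z X * Nat.card ↥(mzh_H0 ↥I (M X)) ≤
          Nat.card ↥(mzh_H0 Γ (M X)) * Nat.card (M X)) from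
    H _ X inferInstance rfl hX
  intro n
  induction n using Nat.strong_induction_on with
  | _ n ih =>
    intro X hfin hn hXpow
    haveI := hfin
    rcases hstep X hfin hXpow with ⟨htriv, hZ0⟩ | ⟨W, zW, Y, f, g, hses, hWnt, hZ, hunr, hmapY, hfinW,
      hgood, hbad⟩
    · -- base case
      haveI := htriv
      haveI := mzh_H1_subsingleton Γ (M X)
      refine ⟨inferInstance, ?_⟩
      have e1 : Nat.card ↥(Sel X) = 1 := Nat.card_unique
      have e2 : Nat.card ↥(mzh_H0 ↥I (M X)) = 1 := Nat.card_unique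
      have e3 : Nat.card ↥(mzh_H0 Γ (M X)) = 1 := Nat.card_unique
      have e4 : Nat.card (M X) = 1 := Nat.card_unique
      rw [e1, e2, e3, e4]
      simpa using hZ0
    · haveI : Finite W.carrier := Finite.of_injective f hses.inj
      haveI : Finite (M Y) := Finite.of_surjective g hses.surj
      haveI := hWnt
      -- cardinalities: `|M X| = |M Y| · |M W|`
      have hcard : Nat.card (M X) = Nat.card (M Y) * Nat.card W.carrier := by
        have h1 := mzh_card_ker_mul_card_range g
        have h2 : Nat.card ↥g.range = Nat.card (M Y) := by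
          rw [AddMonoidHom.range_eq_top.mpr hses.surj]
          exact Nat.card_congr AddSubgroup.topEquiv.toEquiv
        have h3 : Nat.card ↥g.ker = Nat.card W.carrier := by
          have hker : g.ker = f.range := by
            ext b
            rw [AddMonoidHom.mem_ker, hses.exact b, AddMonoidHom.mem_range]
          rw [hker]
          exact mzh_card_range_of_injective f hses.inj
        rw [← h1, h2, h3, mul_comm]
      have hYpos : 0 < Nat.card (M Y) := Nat.card_pos
      have hW2 : 1 < Nat.card W.carrier := Finite.one_lt_card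
      have hlt : Nat.card (M Y) < n := by
        rw [← hn, hcard]
        calc Nat.card (M Y) = Nat.card (M Y) * 1 := (mul_one _).symm
          _ < Nat.card (M Y) * Nat.card W.carrier := Nat.mul_lt_mul_of_pos_left hW2 hYpos
      obtain ⟨m, hm⟩ := hXpow
      have hYpow : ∃ j : ℕ, Nat.card (M Y) = r ^ j := by
        have hdvd : Nat.card (M Y) ∣ r ^ m := by
          rw [← hm, hcard]
          exact dvd_mul_right _ _
        obtain ⟨j, _, hj⟩ := (Nat.dvd_prime_pow hr).mp hdvd
        exact ⟨j, hj⟩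
      obtain ⟨hfinY, hineqY⟩ := ih _ hlt Y inferInstance rfl hYpow
      haveI := hfinY
      haveI := hfinW
      -- the image of `Sel X` is finite and smaller than `Sel Y`
      haveI hfinmap : Finite ↥((Sel X).map (mzh_H1map g hses.g_smul)) :=
        Finite.of_injective (AddSubgroup.inclusion hmapY) (AddSubgroup.inclusion_injective hmapY)
      have hcardmap : Nat.card ↥((Sel X).map (mzh_H1map g hses.g_smul)) ≤ Nat.card ↥(Sel Y) :=
        Nat.card_le_card_of_injective (AddSubgroup.inclusion hmapY)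
          (AddSubgroup.inclusion_injective hmapY)
      have hineqQ : Nat.card ↥((Sel X).map (mzh_H1map g hses.g_smul)) * Z Y *
          Nat.card ↥(mzh_H0 ↥I (M Y)) ≤ Nat.card ↥(mzh_H0 Γ (M Y)) * Nat.card (M Y) :=
        (Nat.mul_le_mul_right _ (Nat.mul_le_mul_right _ hcardmap)).trans hineqY
      have hstp := mzh_step hses (Sel X)
      have hI := mzh_card_ker_H1map (hses.resSub I)
      set k := Nat.card ↥(mzh_H1map (Γ := ↥I) f (hses.resSub I).f_smul).ker with hkdef
      have hiWpos : 0 < Nat.card ↥(mzh_H0 ↥I W.carrier) := Nat.card_pos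
      have hiYpos : 0 < Nat.card ↥(mzh_H0 ↥I (M Y)) := Nat.card_pos
      have hkpos : 0 < k := by
        rcases Nat.eq_zero_or_pos k with h0 | h0
        · exfalso
          rw [h0, mul_zero] at hI
          exact absurd hI (Nat.mul_pos hiYpos hiWpos).ne'
        · exact h0
      have hkpow : k = 1 ∨ r ≤ k := by
        have hd1 : k ∣ Nat.card ↥(mzh_H0 ↥I (M Y)) * Nat.card ↥(mzh_H0 ↥I W.carrier) :=
          ⟨Nat.card ↥(mzh_H0 ↥I (M X)), by rw [hI, mul_comm]⟩
        have hd2 : Nat.card ↥(mzh_H0 ↥I (M Y)) * Nat.card ↥(mzh_H0 ↥I W.carrier) ∣ r ^ m := by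
          rw [← hm, hcard]
          exact Nat.mul_dvd_mul (AddSubgroup.card_addSubgroup_dvd_card _)
            (AddSubgroup.card_addSubgroup_dvd_card _)
        obtain ⟨j, _, hj⟩ := (Nat.dvd_prime_pow hr).mp (hd1.trans hd2)
        rcases Nat.eq_zero_or_pos j with h0 | h0
        · left
          rw [hj, h0, pow_zero]
        · right
          rw [hj]
          calc r = r ^ 1 := (pow_one r).symm
            _ ≤ r ^ j := Nat.pow_le_pow_right hr.pos h0
      have hleaf : Nat.card ↥((Sel X).comap (mzh_H1map f hses.f_smul)) * zW *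
          Nat.card ↥(mzh_H0 ↥I W.carrier) ≤ Nat.card ↥(mzh_H0 Γ W.carrier) * Nat.card W.carrier * k := by
        rcases hkpow with hk1 | hkr
        · have hbot : (mzh_H1map (Γ := ↥I) f (hses.resSub I).f_smul).ker = ⊥ :=
            AddSubgroup.eq_bot_of_card_eq _ hk1
          have hinj : Function.Injective (mzh_H1map (Γ := ↥I) f (hses.resSub I).f_smul) :=
            (AddMonoidHom.ker_eq_bot_iff _).mp hbot
          have hunrW : (Sel X).comap (mzh_H1map f hses.f_smul) ≤ (mzh_H1resSub I).ker := by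
            intro x hx
            have h1 : mzh_H1map f hses.f_smul x ∈ (mzh_H1resSub I).ker := hunr hx
            rw [AddMonoidHom.mem_ker, mzh_H1resSub_H1map] at h1
            rw [AddMonoidHom.mem_ker]
            exact hinj (by rw [h1, map_zero])
          rw [hk1, mul_one]
          exact hgood hunrW
        · exact hbad.trans (Nat.mul_le_mul_left _ hkr)
      have hcW : 0 < Nat.card ↥(mzh_H0 Γ W.carrier) := Nat.card_pos
      have hcY : 0 < Nat.card ↥(mzh_H0 Γ (M Y)) := Nat.card_pos
      constructor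
      · have hLW : 0 < Nat.card ↥((Sel X).comap (mzh_H1map f hses.f_smul)) := Nat.card_pos
        have hLY : 0 < Nat.card ↥((Sel X).map (mzh_H1map g hses.g_smul)) := Nat.card_pos
        have hcX : 0 < Nat.card ↥(mzh_H0 Γ (M X)) := Nat.card_pos
        have hne : Nat.card ↥(Sel X) ≠ 0 := by
          intro h0
          rw [h0, zero_mul] at hstp
          exact absurd hstp.symm (Nat.mul_pos (Nat.mul_pos hLW hLY) hcX).ne'
        exact Nat.finite_of_card_ne_zero hne
      · exact mzh_descent_arith hstp hI hcard hineqQ hleaf hZ hcW hcY hkpos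

end Fermat.Agent.MZ
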