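/-
Project MAZUR (S15), cell [MZ-H5] (helper9): THE DESCENT INDUCTION WITH TWO LOCAL SUBGROUPS.
Same as `mzh_descent_mod` (`MZ/H/InductMod.lean`) but with TWO subgroups `I₁ I₂ ≤ Γ` (in the
application: the inertia group at `p` and the decomposition group `⟨c⟩` at the archimedean place,
helper4's design #2971 for `r = 2`, which works for every `r`).  For each of the two subgroups a
step is GOOD (`k = 1`, the propagated condition on the leaf is: trivial on the subgroup) or BAD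
(`r ≤ k`); the leaf inequality is a single hypothesis quantified over the pair `(k₁, k₂)`.
Conclusion:
  `|Sel X| · Z X · |X^{I₁}| · |X^{I₂}| ≤ |X^Γ| · |X|`.
Prefix `mzh_`.
-/
import Fermat.Agent.MZ.H.InductMod

set_option autoImplicit false
set_option linter.style.haveILetI false

namespace Fermat.Agent.MZ

universe u v w

/-- The numerical heart of one induction step, two subgroups. -/
theorem mzh_descent_arith2 {a zG iG jG cG nG aF zF iF jF cF nF aQ zQ iQ jQ cQ nQ k₁ k₂ : ℕ}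
    (h1 : a * (cF * cQ) = aF * aQ * cG) (h2 : iQ * iF = iG * k₁) (h2' : jQ * jF = jG * k₂)
    (h3 : nG = nQ * nF)
    (h4 : aQ * zQ * iQ * jQ ≤ cQ * nQ) (h5 : aF * zF * iF * jF ≤ cF * nF * k₁ * k₂)
    (h6 : zG ≤ zF * zQ)
    (hcF : 0 < cF) (hcQ : 0 < cQ) (hk₁ : 0 < k₁) (hk₂ : 0 < k₂) :
    a * zG * iG * jG ≤ cG * nG := by
  have hpos : 0 < cF * cQ * k₁ * k₂ :=
    Nat.mul_pos (Nat.mul_pos (Nat.mul_pos hcF hcQ) hk₁) hk₂
  apply Nat.le_of_mul_le_mul_left _ hpos
  calc cF * cQ * k₁ * k₂ * (a * zG * iG * jG)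
      = (a * (cF * cQ)) * zG * (iG * k₁) * (jG * k₂) := by ring
    _ = (aF * aQ * cG) * zG * (iQ * iF) * (jQ * jF) := by rw [h1, h2, h2']
    _ ≤ (aF * aQ * cG) * (zF * zQ) * (iQ * iF) * (jQ * jF) :=
        Nat.mul_le_mul_right _ (Nat.mul_le_mul_right _ (Nat.mul_le_mul_left _ h6))
    _ = cG * ((aF * zF * iF * jF) * (aQ * zQ * iQ * jQ)) := by ring
    _ ≤ cG * ((cF * nF * k₁ * k₂) * (cQ * nQ)) :=
        Nat.mul_le_mul_left _ (Nat.mul_le_mul h5 h4)
    _ = cF * cQ * k₁ * k₂ * (cG * nG) := by rw [h3]; ring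

/-- The step hypothesis of the two-subgroup descent at the object `X`. -/
def mzh_HasStepMod2 {Γ : Type v} [Group Γ] (I₁ I₂ : Subgroup Γ) (r : ℕ) {𝒪 : Type w}
    (M : 𝒪 → Type u) [∀ X, AddCommGroup (M X)] [∀ X, DistribMulAction Γ (M X)]
    (Sel : ∀ X, AddSubgroup (mzh_H1 Γ (M X))) (Z : 𝒪 → ℕ) (X : 𝒪) : Prop :=
  (Subsingleton (M X) ∧ Z X ≤ 1) ∨
  ∃ (W : mzh_Mod.{u, v} Γ) (zW : ℕ) (Y : 𝒪) (f : W.carrier →+ M X) (g : M X →+ M Y)
    (h : mzh_IsSES Γ f g),
    Nontrivial W.carrier ∧ Z X ≤ zW * Z Y ∧ Sel X ≤ (mzh_H1resSub I₁).ker ∧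
    Sel X ≤ (mzh_H1resSub I₂).ker ∧
    (Sel X).map (mzh_H1map g h.g_smul) ≤ Sel Y ∧
    Finite ↥((Sel X).comap (mzh_H1map f h.f_smul)) ∧
    ∀ k₁ k₂ : ℕ,
      ((k₁ = 1 ∧ (Sel X).comap (mzh_H1map f h.f_smul) ≤ (mzh_H1resSub I₁).ker) ∨ r ≤ k₁) →
      ((k₂ = 1 ∧ (Sel X).comap (mzh_H1map f h.f_smul) ≤ (mzh_H1resSub I₂).ker) ∨ r ≤ k₂) →
      Nat.card ↥((Sel X).comap (mzh_H1map f h.f_smul)) * zW *
          Nat.card ↥(mzh_H0 ↥I₁ W.carrier) * Nat.card ↥(mzh_H0 ↥I₂ W.carrier) ≤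
        Nat.card ↥(mzh_H0 Γ W.carrier) * Nat.card W.carrier * k₁ * k₂

/-- GOOD/BAD dichotomy for one subgroup at one step: with
`k := |ker (H¹(I, W) → H¹(I, X))|`, either `k = 1` and the preimage of a group of classes trivial
on `I` is trivial on `I`, or `r ≤ k`. -/
theorem mzh_step_dichotomy {Γ : Type v} [Group Γ] (I : Subgroup Γ) (r : ℕ) (hr : r.Prime)
    {W B C : Type u} [AddCommGroup W] [DistribMulAction Γ W] [AddCommGroup B]
    [DistribMulAction Γ B] [AddCommGroup C] [DistribMulAction Γ C] {f : W →+ B} {g : B →+ C}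
    (hses : mzh_IsSES Γ f g) [Finite B] {m : ℕ} (hm : Nat.card B = r ^ m)
    (hcard : Nat.card B = Nat.card C * Nat.card W)
    (L : AddSubgroup (mzh_H1 Γ B)) (hunr : L ≤ (mzh_H1resSub I).ker) :
    0 < Nat.card ↥(mzh_H1map (Γ := ↥I) f (hses.resSub I).f_smul).ker ∧
    ((Nat.card ↥(mzh_H1map (Γ := ↥I) f (hses.resSub I).f_smul).ker = 1 ∧
      L.comap (mzh_H1map f hses.f_smul) ≤ (mzh_H1resSub I).ker) ∨
      r ≤ Nat.card ↥(mzh_H1map (Γ := ↥I) f (hses.resSub I).f_smul).ker) := by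
  haveI : Finite W := Finite.of_injective f hses.inj
  haveI : Finite C := Finite.of_surjective g hses.surj
  have hI := mzh_card_ker_H1map (hses.resSub I)
  set k := Nat.card ↥(mzh_H1map (Γ := ↥I) f (hses.resSub I).f_smul).ker with hkdef
  have hiWpos : 0 < Nat.card ↥(mzh_H0 ↥I W) := Nat.card_pos
  have hiYpos : 0 < Nat.card ↥(mzh_H0 ↥I C) := Nat.card_pos
  have hkpos : 0 < k := by
    rcases Nat.eq_zero_or_pos k with h0 | h0
    · exfalso
      rw [h0, mul_zero] at hI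
      exact absurd hI (Nat.mul_pos hiYpos hiWpos).ne'
    · exact h0
  refine ⟨hkpos, ?_⟩
  have hd1 : k ∣ Nat.card ↥(mzh_H0 ↥I C) * Nat.card ↥(mzh_H0 ↥I W) :=
    ⟨Nat.card ↥(mzh_H0 ↥I B), by rw [hI, mul_comm]⟩
  have hd2 : Nat.card ↥(mzh_H0 ↥I C) * Nat.card ↥(mzh_H0 ↥I W) ∣ r ^ m := by
    rw [← hm, hcard]
    exact Nat.mul_dvd_mul (AddSubgroup.card_addSubgroup_dvd_card _)
      (AddSubgroup.card_addSubgroup_dvd_card _)
  obtain ⟨j, _, hj⟩ := (Nat.dvd_prime_pow hr).mp (hd1.trans hd2)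
  rcases Nat.eq_zero_or_pos j with h0 | h0
  · left
    have hk1 : k = 1 := by rw [hj, h0, pow_zero]
    refine ⟨hk1, ?_⟩
    have hbot : (mzh_H1map (Γ := ↥I) f (hses.resSub I).f_smul).ker = ⊥ :=
      AddSubgroup.eq_bot_of_card_eq _ hk1
    have hinj : Function.Injective (mzh_H1map (Γ := ↥I) f (hses.resSub I).f_smul) :=
      (AddMonoidHom.ker_eq_bot_iff _).mp hbot
    intro x hx
    have h1 : mzh_H1map f hses.f_smul x ∈ (mzh_H1resSub I).ker := hunr hx
    rw [AddMonoidHom.mem_ker, mzh_H1resSub_H1map] at h1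
    rw [AddMonoidHom.mem_ker]
    exact hinj (by rw [h1, map_zero])
  · right
    rw [hj]
    calc r = r ^ 1 := (pow_one r).symm
      _ ≤ r ^ j := Nat.pow_le_pow_right hr.pos h0

/-- **The Eisenstein descent with two local subgroups, object-indexed form.** -/
theorem mzh_descent_mod2 {Γ : Type v} [Group Γ] (I₁ I₂ : Subgroup Γ) (r : ℕ) (hr : r.Prime)
    {𝒪 : Type w} (M : 𝒪 → Type u) [∀ X, AddCommGroup (M X)] [∀ X, DistribMulAction Γ (M X)]
    (Sel : ∀ X, AddSubgroup (mzh_H1 Γ (M X))) (Z : 𝒪 → ℕ)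
    (hstep : ∀ X : 𝒪, Finite (M X) → (∃ n : ℕ, Nat.card (M X) = r ^ n) →
      mzh_HasStepMod2 I₁ I₂ r M Sel Z X)
    (X : 𝒪) [Finite (M X)] (hX : ∃ n : ℕ, Nat.card (M X) = r ^ n) :
    Finite ↥(Sel X) ∧
      Nat.card ↥(Sel X) * Z X * Nat.card ↥(mzh_H0 ↥I₁ (M X)) * Nat.card ↥(mzh_H0 ↥I₂ (M X)) ≤
        Nat.card ↥(mzh_H0 Γ (M X)) * Nat.card (M X) := by
  suffices H : ∀ n : ℕ, ∀ X : 𝒪, Finite (M X) → Nat.card (M X) = n →
      (∃ m : ℕ, Nat.card (M X) = r ^ m) →
      (Finite ↥(Sel X) ∧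
        Nat.card ↥(Sel X) * Z X * Nat.card ↥(mzh_H0 ↥I₁ (M X)) *
            Nat.card ↥(mzh_H0 ↥I₂ (M X)) ≤
          Nat.card ↥(mzh_H0 Γ (M X)) * Nat.card (M X)) from
    H _ X inferInstance rfl hX
  intro n
  induction n using Nat.strong_induction_on with
  | _ n ih =>
    intro X hfin hn hXpow
    haveI := hfin
    rcases hstep X hfin hXpow with ⟨htriv, hZ0⟩ |
      ⟨W, zW, Y, f, g, hses, hWnt, hZ, hunr₁, hunr₂, hmapY, hfinW, hleafk⟩
    · -- base case
      haveI := htriv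
      haveI := mzh_H1_subsingleton Γ (M X)
      refine ⟨inferInstance, ?_⟩
      have e1 : Nat.card ↥(Sel X) = 1 := Nat.card_unique
      have e2 : Nat.card ↥(mzh_H0 ↥I₁ (M X)) = 1 := Nat.card_unique
      have e2' : Nat.card ↥(mzh_H0 ↥I₂ (M X)) = 1 := Nat.card_unique
      have e3 : Nat.card ↥(mzh_H0 Γ (M X)) = 1 := Nat.card_unique
      have e4 : Nat.card (M X) = 1 := Nat.card_unique
      rw [e1, e2, e2', e3, e4]
      simpa using hZ0
    · haveI : Finite W.carrier := Finite.of_injective f hses.inj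
      haveI : Finite (M Y) := Finite.of_surjective g hses.surj
      haveI := hWnt
      -- cardinalities: `|M X| = |M Y| · |M W|`
      have hcard : Nat.card (M X) = Nat.card (M Y) * Nat.card W.carrier := by
        have h1 := mzh_card_ker_mul_card_range g
        have h2 : Nat.card ↥g.range = Nat.card (M Y) := by
          rw [AddMonoidHom.range_eq_top.mpr hses.surj]
          exact Nat.card_congr AddSubgroup.topEquiv.toEquiv
        have h3 : Nat.card ↥g.ker = Nat.card W.carrier := by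
          have hker : g.ker = f.range := by
            ext b
            rw [AddMonoidHom.mem_ker, hses.exact b, AddMonoidHom.mem_range]
          rw [hker]
          exact mzh_card_range_of_injective f hses.inj
        rw [← h1, h2, h3, mul_comm]
      have hYpos : 0 < Nat.card (M Y) := Nat.card_pos
      have hW2 : 1 < Nat.card W.carrier := Finite.one_lt_card
      have hlt : Nat.card (M Y) < n := by
        rw [← hn, hcard]
        calc Nat.card (M Y) = Nat.card (M Y) * 1 := (mul_one _).symm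
          _ < Nat.card (M Y) * Nat.card W.carrier := Nat.mul_lt_mul_of_pos_left hW2 hYpos
      obtain ⟨m, hm⟩ := hXpow
      have hYpow : ∃ j : ℕ, Nat.card (M Y) = r ^ j := by
        have hdvd : Nat.card (M Y) ∣ r ^ m := by
          rw [← hm, hcard]
          exact dvd_mul_right _ _
        obtain ⟨j, _, hj⟩ := (Nat.dvd_prime_pow hr).mp hdvd
        exact ⟨j, hj⟩
      obtain ⟨hfinY, hineqY⟩ := ih _ hlt Y inferInstance rfl hYpow
      haveI := hfinY
      haveI := hfinW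
      -- the image of `Sel X` is finite and smaller than `Sel Y`
      haveI hfinmap : Finite ↥((Sel X).map (mzh_H1map g hses.g_smul)) :=
        Finite.of_injective (AddSubgroup.inclusion hmapY) (AddSubgroup.inclusion_injective hmapY)
      have hcardmap : Nat.card ↥((Sel X).map (mzh_H1map g hses.g_smul)) ≤ Nat.card ↥(Sel Y) :=
        Nat.card_le_card_of_injective (AddSubgroup.inclusion hmapY)
          (AddSubgroup.inclusion_injective hmapY)
      have hineqQ : Nat.card ↥((Sel X).map (mzh_H1map g hses.g_smul)) * Z Y *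
          Nat.card ↥(mzh_H0 ↥I₁ (M Y)) * Nat.card ↥(mzh_H0 ↥I₂ (M Y)) ≤
          Nat.card ↥(mzh_H0 Γ (M Y)) * Nat.card (M Y) :=
        (Nat.mul_le_mul_right _ (Nat.mul_le_mul_right _
          (Nat.mul_le_mul_right _ hcardmap))).trans hineqY
      have hstp := mzh_step hses (Sel X)
      have hI₁ := mzh_card_ker_H1map (hses.resSub I₁)
      have hI₂ := mzh_card_ker_H1map (hses.resSub I₂)
      obtain ⟨hk₁pos, hk₁⟩ := mzh_step_dichotomy I₁ r hr hses hm hcard (Sel X) hunr₁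
      obtain ⟨hk₂pos, hk₂⟩ := mzh_step_dichotomy I₂ r hr hses hm hcard (Sel X) hunr₂
      have hleaf := hleafk _ _ hk₁ hk₂
      have hcW : 0 < Nat.card ↥(mzh_H0 Γ W.carrier) := Nat.card_pos
      have hcY : 0 < Nat.card ↥(mzh_H0 Γ (M Y)) := Nat.card_pos
      constructor
      · have hLW : 0 < Nat.card ↥((Sel X).comap (mzh_H1map f hses.f_smul)) := Nat.card_pos
        have hLY : 0 < Nat.card ↥((Sel X).map (mzh_H1map g hses.g_smul)) := Nat.card_pos
        have hcX : 0 < Nat.card ↥(mzh_H0 Γ (M X)) := Nat.card_pos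
        have hne : Nat.card ↥(Sel X) ≠ 0 := by
          intro h0
          rw [h0, zero_mul] at hstp
          exact absurd hstp.symm (Nat.mul_pos (Nat.mul_pos hLW hLY) hcX).ne'
        exact Nat.finite_of_card_ne_zero hne
      · exact mzh_descent_arith2 hstp hI₁ hI₂ hcard hineqQ hleaf hZ hcW hcY hk₁pos hk₂pos

end Fermat.Agent.MZ
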