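/-
MAZUR / node [MZ-H] (F5), glue (helper29): TRANSPORT of the elementary cohomology of
`MZ/H/Coh.lean` along an equivariant additive equivalence `e : A ≃+ B`
(the leaves `E ≅ ℤ/r` or `μ_r` of the devissage are only known up to isomorphism).

* `mzd_H1equiv e he : mzh_H1 Γ A ≃+ mzh_H1 Γ B` (underlying map `mzh_H1map e`), `mzd_H0equiv`;
* `mzd_H1map_bijective`, cardinalities of `H¹`, `H⁰`, of `L.comap`, `L.map`;
* compatibility with restriction to a subgroup `I ≤ Γ` (`mzd_resSub_equiv`, `mzd_resSub_eq_zero_iff`,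
  `mzd_comap_le_ker_resSub`, `mzd_map_le_ker_resSub`).
Prefix `mzd_`.
-/
import Fermat.Agent.MZ.H.Coh

set_option autoImplicit false

namespace Fermat.Agent.MZ

section

variable {Γ : Type*} [Group Γ] {A B : Type*} [AddCommGroup A] [DistribMulAction Γ A]
  [AddCommGroup B] [DistribMulAction Γ B]

/-- equivariance of the forward map of an equivariant equivalence, in the `→+` shape -/
theorem mzd_equiv_smul (e : A ≃+ B) (he : ∀ (σ : Γ) (a : A), e (σ • a) = σ • e a) :
    ∀ (σ : Γ) (a : A), (e : A →+ B) (σ • a) = σ • (e : A →+ B) a := fun σ a => he σ a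

/-- equivariance of the inverse of an equivariant equivalence -/
theorem mzd_symm_smul (e : A ≃+ B) (he : ∀ (σ : Γ) (a : A), e (σ • a) = σ • e a) :
    ∀ (σ : Γ) (b : B), (e.symm : B →+ A) (σ • b) = σ • (e.symm : B →+ A) b := by
  intro σ b
  apply e.injective
  show e (e.symm (σ • b)) = e (σ • e.symm b)
  rw [he, e.apply_symm_apply, e.apply_symm_apply]

/-- **Transport of `H¹`** along an equivariant equivalence. -/
def mzd_H1equiv (e : A ≃+ B) (he : ∀ (σ : Γ) (a : A), e (σ • a) = σ • e a) :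
    mzh_H1 Γ A ≃+ mzh_H1 Γ B where
  toFun := mzh_H1map (e : A →+ B) (mzd_equiv_smul e he)
  invFun := mzh_H1map (e.symm : B →+ A) (mzd_symm_smul e he)
  left_inv := by
    intro x
    obtain ⟨c, rfl⟩ := mzh_cls_surjective Γ A x
    rw [mzh_H1map_cls, mzh_H1map_cls]
    congr 1
    apply Subtype.ext
    funext σ
    show e.symm (e ((c : Γ → A) σ)) = (c : Γ → A) σ
    exact e.symm_apply_apply _
  right_inv := by
    intro x
    obtain ⟨c, rfl⟩ := mzh_cls_surjective Γ B x
    rw [mzh_H1map_cls, mzh_H1map_cls]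
    congr 1
    apply Subtype.ext
    funext σ
    show e (e.symm ((c : Γ → B) σ)) = (c : Γ → B) σ
    exact e.apply_symm_apply _
  map_add' := map_add _

@[simp] theorem mzd_H1equiv_apply (e : A ≃+ B) (he : ∀ (σ : Γ) (a : A), e (σ • a) = σ • e a)
    (x : mzh_H1 Γ A) :
    mzd_H1equiv e he x = mzh_H1map (e : A →+ B) (mzd_equiv_smul e he) x := rfl

@[simp] theorem mzd_H1equiv_symm_apply (e : A ≃+ B)
    (he : ∀ (σ : Γ) (a : A), e (σ • a) = σ • e a) (y : mzh_H1 Γ B) :
    (mzd_H1equiv e he).symm y = mzh_H1map (e.symm : B →+ A) (mzd_symm_smul e he) y := rfl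

theorem mzd_H1map_bijective (e : A ≃+ B) (he : ∀ (σ : Γ) (a : A), e (σ • a) = σ • e a) :
    Function.Bijective (mzh_H1map (e : A →+ B) (mzd_equiv_smul e he)) :=
  (mzd_H1equiv e he).bijective

theorem mzd_card_H1 (e : A ≃+ B) (he : ∀ (σ : Γ) (a : A), e (σ • a) = σ • e a) :
    Nat.card (mzh_H1 Γ A) = Nat.card (mzh_H1 Γ B) :=
  Nat.card_congr (mzd_H1equiv e he).toEquiv

/-- **Transport of `H⁰`.** -/
def mzd_H0equiv (e : A ≃+ B) (he : ∀ (σ : Γ) (a : A), e (σ • a) = σ • e a) :
    ↥(mzh_H0 Γ A) ≃+ ↥(mzh_H0 Γ B) where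
  toFun := mzh_H0map (e : A →+ B) (mzd_equiv_smul e he)
  invFun := mzh_H0map (e.symm : B →+ A) (mzd_symm_smul e he)
  left_inv := by
    intro a
    apply Subtype.ext
    show e.symm (e (a : A)) = a
    exact e.symm_apply_apply _
  right_inv := by
    intro b
    apply Subtype.ext
    show e (e.symm (b : B)) = b
    exact e.apply_symm_apply _
  map_add' := map_add _

theorem mzd_card_H0 (e : A ≃+ B) (he : ∀ (σ : Γ) (a : A), e (σ • a) = σ • e a) :
    Nat.card ↥(mzh_H0 Γ A) = Nat.card ↥(mzh_H0 Γ B) :=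
  Nat.card_congr (mzd_H0equiv e he).toEquiv

/-- the preimage of a subgroup under the transport has the same cardinality -/
theorem mzd_card_comap (e : A ≃+ B) (he : ∀ (σ : Γ) (a : A), e (σ • a) = σ • e a)
    (L : AddSubgroup (mzh_H1 Γ B)) :
    Nat.card ↥(L.comap (mzh_H1map (e : A →+ B) (mzd_equiv_smul e he))) = Nat.card ↥L := by
  refine Nat.card_congr
    { toFun := fun x => ⟨mzd_H1equiv e he x.1, x.2⟩
      invFun := fun y => ⟨(mzd_H1equiv e he).symm y.1, by
        show mzd_H1equiv e he ((mzd_H1equiv e he).symm y.1) ∈ L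
        rw [AddEquiv.apply_symm_apply]
        exact y.2⟩
      left_inv := fun x => Subtype.ext ((mzd_H1equiv e he).symm_apply_apply x.1)
      right_inv := fun y => Subtype.ext ((mzd_H1equiv e he).apply_symm_apply y.1) }

/-- the image of a subgroup under the transport has the same cardinality -/
theorem mzd_card_map (e : A ≃+ B) (he : ∀ (σ : Γ) (a : A), e (σ • a) = σ • e a)
    (L : AddSubgroup (mzh_H1 Γ A)) :
    Nat.card ↥(L.map (mzh_H1map (e : A →+ B) (mzd_equiv_smul e he))) = Nat.card ↥L := by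
  symm
  refine Nat.card_congr
    { toFun := fun x => ⟨mzd_H1equiv e he x.1, ⟨x.1, x.2, rfl⟩⟩
      invFun := fun y => ⟨(mzd_H1equiv e he).symm y.1, by
        obtain ⟨x, hx, hxy⟩ := y.2
        have : (mzd_H1equiv e he).symm y.1 = x := by
          rw [← hxy]
          exact (mzd_H1equiv e he).symm_apply_apply x
        rw [this]
        exact hx⟩
      left_inv := fun x => Subtype.ext ((mzd_H1equiv e he).symm_apply_apply x.1)
      right_inv := fun y => Subtype.ext ((mzd_H1equiv e he).apply_symm_apply y.1) }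

/-- the image under the transport is the preimage under the inverse transport -/
theorem mzd_map_eq_comap_symm (e : A ≃+ B) (he : ∀ (σ : Γ) (a : A), e (σ • a) = σ • e a)
    (L : AddSubgroup (mzh_H1 Γ A)) :
    L.map (mzh_H1map (e : A →+ B) (mzd_equiv_smul e he)) =
      L.comap (mzh_H1map (e.symm : B →+ A) (mzd_symm_smul e he)) := by
  ext y
  constructor
  · rintro ⟨x, hx, rfl⟩
    show (mzd_H1equiv e he).symm (mzd_H1equiv e he x) ∈ L
    rw [AddEquiv.symm_apply_apply]
    exact hx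
  · intro hy
    exact ⟨(mzd_H1equiv e he).symm y, hy, (mzd_H1equiv e he).apply_symm_apply y⟩

/-! ### Restriction to a subgroup -/

/-- transport commutes with restriction to `I ≤ Γ` -/
theorem mzd_resSub_equiv (I : Subgroup Γ) (e : A ≃+ B)
    (he : ∀ (σ : Γ) (a : A), e (σ • a) = σ • e a) (x : mzh_H1 Γ A) :
    mzh_H1resSub I (mzd_H1equiv e he x) =
      mzd_H1equiv (Γ := ↥I) e (fun σ a => he σ a) (mzh_H1resSub I x) := by
  obtain ⟨c, rfl⟩ := mzh_cls_surjective Γ A x
  rfl

/-- a class dies on `I` iff its transport does -/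
theorem mzd_resSub_eq_zero_iff (I : Subgroup Γ) (e : A ≃+ B)
    (he : ∀ (σ : Γ) (a : A), e (σ • a) = σ • e a) (x : mzh_H1 Γ A) :
    mzh_H1resSub I (mzh_H1map (e : A →+ B) (mzd_equiv_smul e he) x) = 0 ↔
      mzh_H1resSub I x = 0 := by
  have h := mzd_resSub_equiv I e he x
  rw [mzd_H1equiv_apply] at h
  rw [h]
  exact (mzd_H1equiv (Γ := ↥I) e (fun σ a => he σ a)).map_eq_zero_iff

/-- unramified classes pull back to unramified classes -/
theorem mzd_comap_le_ker_resSub (I : Subgroup Γ) (e : A ≃+ B)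
    (he : ∀ (σ : Γ) (a : A), e (σ • a) = σ • e a) (L : AddSubgroup (mzh_H1 Γ B))
    (hL : L ≤ (mzh_H1resSub I).ker) :
    L.comap (mzh_H1map (e : A →+ B) (mzd_equiv_smul e he)) ≤ (mzh_H1resSub I).ker := by
  intro x hx
  rw [AddMonoidHom.mem_ker]
  exact (mzd_resSub_eq_zero_iff I e he x).mp (hL hx)

/-- unramified classes push forward to unramified classes -/
theorem mzd_map_le_ker_resSub (I : Subgroup Γ) (e : A ≃+ B)
    (he : ∀ (σ : Γ) (a : A), e (σ • a) = σ • e a) (L : AddSubgroup (mzh_H1 Γ A))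
    (hL : L ≤ (mzh_H1resSub I).ker) :
    L.map (mzh_H1map (e : A →+ B) (mzd_equiv_smul e he)) ≤ (mzh_H1resSub I).ker := by
  rintro y ⟨x, hx, rfl⟩
  rw [AddMonoidHom.mem_ker]
  exact (mzd_resSub_eq_zero_iff I e he x).mpr (hL hx)

end

end Fermat.Agent.MZ
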