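/-
MAZUR / node [MZ-H] (F5), abstract counting (helper29).  Prefix `mzd_`.

Pure abelian-group counting behind the devissage step and the GOOD/BAD analysis, for an abstract
six-term exact sequence
`A0 -f0-> B0 -g0-> C0 -d-> A1 -f1-> B1 -g1-> C1` (`f0` injective; exactness at `B0, C0, A1, B1`
in the form `g x = 0 ↔ ∃ y, f y = x`).

* `mzd_six_card` : for `L ≤ B1`:
  `#L * #A0 * #C0 = #(L.comap f1) * #(L.map g1) * #B0` (an EQUALITY of `Nat.card`s);
* `mzd_good_inj` : `g0` surjective ⟹ `f1` injective;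
* `mzd_bad_card`, `mzd_good_card` : for `r`-groups with `#A0 ∣ r`:
  `g0` not surjective ⟹ `#B0 ≤ #C0`;  always `#B0 ≤ r * #C0`;
* `mzd_telescope`, `mzd_telescope_le` : the telescoping of the step equalities along a chain.
-/
import Mathlib

set_option autoImplicit false

namespace Fermat.Agent.MZ

/-- `#ker * #range = #G`, no finiteness needed (`Nat.card` conventions). -/
theorem mzd_card_ker_mul_card_range {G H : Type*} [AddCommGroup G] [AddCommGroup H] (f : G →+ H) :
    Nat.card f.ker * Nat.card f.range = Nat.card G := by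
  rw [← AddSubgroup.index_ker]
  exact AddSubgroup.card_mul_index f.ker

/-- exactness `X -u-> Y -v-> Z` at `Y` gives `#Y = #range u * #range v`. -/
theorem mzd_card_of_exact {X Y Z : Type*} [AddCommGroup X] [AddCommGroup Y] [AddCommGroup Z]
    (u : X →+ Y) (v : Y →+ Z) (h : ∀ y, v y = 0 ↔ ∃ x, u x = y) :
    Nat.card Y = Nat.card u.range * Nat.card v.range := by
  have hk : v.ker = u.range := by
    ext y
    rw [AddMonoidHom.mem_ker, AddMonoidHom.mem_range]
    exact h y
  rw [← mzd_card_ker_mul_card_range v, hk]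

theorem mzd_card_range_of_injective {X Y : Type*} [AddCommGroup X] [AddCommGroup Y] (u : X →+ Y)
    (hu : Function.Injective u) : Nat.card u.range = Nat.card X :=
  (Nat.card_congr (AddMonoidHom.ofInjective hu).toEquiv).symm

section six

variable {A0 B0 C0 A1 B1 C1 : Type*} [AddCommGroup A0] [AddCommGroup B0] [AddCommGroup C0]
  [AddCommGroup A1] [AddCommGroup B1] [AddCommGroup C1]
  (f0 : A0 →+ B0) (g0 : B0 →+ C0) (d : C0 →+ A1) (f1 : A1 →+ B1) (g1 : B1 →+ C1)

/-- **The devissage step as an equality.** -/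
theorem mzd_six_card (hf0 : Function.Injective f0)
    (hB0 : ∀ b, g0 b = 0 ↔ ∃ a, f0 a = b) (hC0 : ∀ c, d c = 0 ↔ ∃ b, g0 b = c)
    (hA1 : ∀ a, f1 a = 0 ↔ ∃ c, d c = a) (hB1 : ∀ b, g1 b = 0 ↔ ∃ a, f1 a = b)
    (L : AddSubgroup B1) :
    Nat.card L * Nat.card A0 * Nat.card C0 =
      Nat.card (L.comap f1) * Nat.card (L.map g1) * Nat.card B0 := by
  -- `ψ : L.comap f1 → L`, `φ : L → C1`, `d' : C0 → L.comap f1`
  let ψ : (L.comap f1) →+ L :=
    { toFun := fun a => ⟨f1 a.1, a.2⟩
      map_zero' := Subtype.ext (map_zero f1)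
      map_add' := fun a b => Subtype.ext (map_add f1 a.1 b.1) }
  let φ : L →+ C1 := g1.comp L.subtype
  have hd0 : ∀ c, f1 (d c) = 0 := fun c => (hA1 (d c)).mpr ⟨c, rfl⟩
  let d' : C0 →+ (L.comap f1) :=
    { toFun := fun c => ⟨d c, by
        show f1 (d c) ∈ L
        rw [hd0]; exact L.zero_mem⟩
      map_zero' := Subtype.ext (map_zero d)
      map_add' := fun a b => Subtype.ext (map_add d a b) }
  -- exactness at `L`
  have e1 : Nat.card L = Nat.card ψ.range * Nat.card φ.range := by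
    apply mzd_card_of_exact ψ φ
    intro y
    constructor
    · intro hy
      obtain ⟨a, ha⟩ := (hB1 y.1).mp hy
      exact ⟨⟨a, by show f1 a ∈ L; rw [ha]; exact y.2⟩, Subtype.ext ha⟩
    · rintro ⟨a, rfl⟩
      exact (hB1 _).mpr ⟨a.1, rfl⟩
  -- exactness at `L.comap f1`
  have e2 : Nat.card (L.comap f1) = Nat.card d'.range * Nat.card ψ.range := by
    apply mzd_card_of_exact d' ψ
    intro a
    constructor
    · intro ha
      have ha' : f1 a.1 = 0 := congrArg Subtype.val ha
      obtain ⟨c, hc⟩ := (hA1 a.1).mp ha'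
      exact ⟨c, Subtype.ext hc⟩
    · rintro ⟨c, rfl⟩
      exact Subtype.ext (hd0 c)
  -- exactness at `C0`
  have e3 : Nat.card C0 = Nat.card g0.range * Nat.card d'.range := by
    apply mzd_card_of_exact g0 d'
    intro c
    constructor
    · intro hc
      exact (hC0 c).mp (congrArg Subtype.val hc)
    · intro hc
      exact Subtype.ext ((hC0 c).mpr hc)
  -- exactness at `B0`
  have e4 : Nat.card B0 = Nat.card A0 * Nat.card g0.range := by
    rw [mzd_card_of_exact f0 g0 hB0, mzd_card_range_of_injective f0 hf0]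
  -- the image
  have e5 : Nat.card φ.range = Nat.card (L.map g1) := by
    have : φ.range = L.map g1 := by
      ext c
      constructor
      · rintro ⟨x, rfl⟩
        exact ⟨x.1, x.2, rfl⟩
      · rintro ⟨x, hx, rfl⟩
        exact ⟨⟨x, hx⟩, rfl⟩
    rw [this]
  rw [e1, e2, e3, e4, e5]
  ring

/-- **GOOD**: `g0` onto ⟹ `f1` injective. -/
theorem mzd_good_inj (hC0 : ∀ c, d c = 0 ↔ ∃ b, g0 b = c) (hA1 : ∀ a, f1 a = 0 ↔ ∃ c, d c = a)
    (hg0 : Function.Surjective g0) : Function.Injective f1 := by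
  rw [injective_iff_map_eq_zero]
  intro a ha
  obtain ⟨c, rfl⟩ := (hA1 a).mp ha
  obtain ⟨b, rfl⟩ := hg0 c
  exact (hC0 _).mpr ⟨b, rfl⟩

/-- in the GOOD case a class of `A1` whose image lies in a subgroup `K ≤ B1` killed by an
(injective-detected) map is itself killed: the form used for restriction to inertia. -/
theorem mzd_good_eq_zero (hC0 : ∀ c, d c = 0 ↔ ∃ b, g0 b = c) (hA1 : ∀ a, f1 a = 0 ↔ ∃ c, d c = a)
    (hg0 : Function.Surjective g0) (a : A1) (ha : f1 a = 0) : a = 0 :=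
  mzd_good_inj g0 d f1 hC0 hA1 hg0 (by rw [ha, map_zero])

/-- always: `#B0 ≤ r * #C0` when `#A0 ∣ r`. -/
theorem mzd_good_card [Finite C0] (hf0 : Function.Injective f0)
    (hB0 : ∀ b, g0 b = 0 ↔ ∃ a, f0 a = b) {r : ℕ} (hr : 0 < r) (hA : Nat.card A0 ∣ r) :
    Nat.card B0 ≤ r * Nat.card C0 := by
  have e4 : Nat.card B0 = Nat.card A0 * Nat.card g0.range := by
    rw [mzd_card_of_exact f0 g0 hB0, mzd_card_range_of_injective f0 hf0]
  rw [e4]
  exact Nat.mul_le_mul (Nat.le_of_dvd hr hA) (Nat.card_le_card_of_injective _ Subtype.val_injective)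

/-- **BAD**: `C0` an `r`-group, `#A0 ∣ r`, `g0` not onto ⟹ `#B0 ≤ #C0`. -/
theorem mzd_bad_card [Finite C0] (hf0 : Function.Injective f0)
    (hB0 : ∀ b, g0 b = 0 ↔ ∃ a, f0 a = b) {r : ℕ} (hr : r.Prime) (hA : Nat.card A0 ∣ r)
    (hC : ∃ m : ℕ, Nat.card C0 = r ^ m) (hg0 : ¬ Function.Surjective g0) :
    Nat.card B0 ≤ Nat.card C0 := by
  have e4 : Nat.card B0 = Nat.card A0 * Nat.card g0.range := by
    rw [mzd_card_of_exact f0 g0 hB0, mzd_card_range_of_injective f0 hf0]
  have hidx : Nat.card g0.range * g0.range.index = Nat.card C0 := AddSubgroup.card_mul_index _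
  obtain ⟨m, hm⟩ := hC
  have hne1 : g0.range.index ≠ 1 := by
    intro h1
    apply hg0
    rw [AddSubgroup.index_eq_one] at h1
    intro c
    have : c ∈ g0.range := h1 ▸ AddSubgroup.mem_top c
    exact this
  have hdvd : g0.range.index ∣ r ^ m := by
    rw [← hm, ← hidx]
    exact Dvd.intro_left _ rfl
  obtain ⟨j, -, hj⟩ := (Nat.dvd_prime_pow hr).mp hdvd
  have hj0 : j ≠ 0 := by
    rintro rfl
    exact hne1 (by rw [hj, pow_zero])
  have hrle : r ≤ g0.range.index := by
    rw [hj]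
    calc r = r ^ 1 := (pow_one r).symm
      _ ≤ r ^ j := Nat.pow_le_pow_right hr.pos (Nat.one_le_iff_ne_zero.mpr hj0)
  rw [e4, ← hidx]
  calc Nat.card A0 * Nat.card g0.range ≤ r * Nat.card g0.range :=
        Nat.mul_le_mul_right _ (Nat.le_of_dvd hr.pos hA)
    _ = Nat.card g0.range * r := Nat.mul_comm _ _
    _ ≤ Nat.card g0.range * g0.range.index := Nat.mul_le_mul_left _ hrle

end six

/-! ### Telescoping -/

/-- the step equalities `s (i+1) * a i * h i = e i * s i * h (i+1)` along a chain telescope to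
`s n * ∏ a = (∏ e) * h n`. -/
theorem mzd_telescope (s h a e : ℕ → ℕ) (n : ℕ) (hs0 : s 0 = 1) (hh0 : h 0 = 1)
    (hh : ∀ i, 0 < h i)
    (step : ∀ i < n, s (i + 1) * a i * h i = e i * s i * h (i + 1)) :
    s n * ∏ i ∈ Finset.range n, a i = (∏ i ∈ Finset.range n, e i) * h n := by
  induction n with
  | zero => simp [hs0, hh0]
  | succ n ih =>
    have ih' := ih fun i hi => step i (Nat.lt_succ_of_lt hi)
    have st := step n (Nat.lt_succ_self n)
    rw [Finset.prod_range_succ, Finset.prod_range_succ]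
    apply Nat.eq_of_mul_eq_mul_right (hh n)
    calc s (n + 1) * ((∏ i ∈ Finset.range n, a i) * a n) * h n
        = (s (n + 1) * a n * h n) * ∏ i ∈ Finset.range n, a i := by ring
      _ = (e n * s n * h (n + 1)) * ∏ i ∈ Finset.range n, a i := by rw [st]
      _ = e n * h (n + 1) * (s n * ∏ i ∈ Finset.range n, a i) := by ring
      _ = e n * h (n + 1) * ((∏ i ∈ Finset.range n, e i) * h n) := by rw [ih']
      _ = (∏ i ∈ Finset.range n, e i) * e n * h (n + 1) * h n := by ring

/-- bounded version: `e i ≤ b i * a i` for all steps ⟹ `s n ≤ (∏ b) * h n`. -/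
theorem mzd_telescope_le (s h a e b : ℕ → ℕ) (n : ℕ) (hs0 : s 0 = 1) (hh0 : h 0 = 1)
    (hh : ∀ i, 0 < h i) (ha : ∀ i, 0 < a i)
    (step : ∀ i < n, s (i + 1) * a i * h i = e i * s i * h (i + 1))
    (hb : ∀ i < n, e i ≤ b i * a i) :
    s n ≤ (∏ i ∈ Finset.range n, b i) * h n := by
  have key := mzd_telescope s h a e n hs0 hh0 hh step
  have hpa : 0 < ∏ i ∈ Finset.range n, a i := Finset.prod_pos fun i _ => ha i
  have hle : ∏ i ∈ Finset.range n, e i ≤ ∏ i ∈ Finset.range n, (b i * a i) :=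
    Finset.prod_le_prod' fun i hi => hb i (Finset.mem_range.mp hi)
  rw [Finset.prod_mul_distrib] at hle
  apply Nat.le_of_mul_le_mul_right _ hpa
  calc s n * ∏ i ∈ Finset.range n, a i = (∏ i ∈ Finset.range n, e i) * h n := key
    _ ≤ ((∏ i ∈ Finset.range n, b i) * ∏ i ∈ Finset.range n, a i) * h n :=
        Nat.mul_le_mul_right _ hle
    _ = (∏ i ∈ Finset.range n, b i) * h n * ∏ i ∈ Finset.range n, a i := by ring

end Fermat.Agent.MZ
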